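import Mathlib
import Fermat.Agent.S24.QExp
import Fermat.Agent.Lib.Residue.Basic

/-!
helper29 (P-GATEWAY WP-GR8a, sub-package of WP-GR8 Forms owned by helper56).

The normalized derivative `D = (2πi)⁻¹ d/dτ` (Mathlib `Derivative.normalizedDerivOfComplex`)
acts on `q`-expansions as `q d/dq`:
* `nice_D`, `qExpansion_D_coeff` for holomorphic `1`-periodic functions bounded at `i∞`;
* `isPer_D`, `modGrowth_D`, `dPer : PerFun → PerFun`, and
  `qLaurent_dPer : qLaurent (dPer f) = X * d/dX (qLaurent f)` for Laurent `q`-expansions.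
-/

set_option autoImplicit false

open Complex Filter Function
open UpperHalfPlane hiding I
open scoped Manifold MatrixGroups Topology Real
open Fermat.Agent.S24 Fermat.Agent.S24.QExp Derivative

namespace Fermat.Agent.Gateway.GoodRed.Forms

local notation "𝕢" => Periodic.qParam

/-! ### Derivative of the parameter `q` -/

theorem hasDerivAt_qParam_one (w : ℂ) : HasDerivAt (𝕢 1) (2 * π * I * 𝕢 1 w) w := by
  have h1 : HasDerivAt (fun z : ℂ => 2 * π * I * z / ((1 : ℝ) : ℂ)) (2 * π * I) w := by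
    simpa using (hasDerivAt_id w).const_mul (2 * (π : ℂ) * I)
  have h2 := h1.cexp
  have e : (fun z : ℂ => cexp (2 * π * I * z / ((1 : ℝ) : ℂ))) = 𝕢 1 := rfl
  rw [e] at h2
  exact h2.congr_deriv (by rw [mul_comm]; rfl)

/-- On the open upper half-plane `f ∘ ofComplex` is `cuspFunction 1 f ∘ 𝕢 1`. -/
theorem comp_ofComplex_eventuallyEq {f : ℍ → ℂ} (hp : IsPer 1 f) (τ : ℍ) :
    f ∘ ofComplex =ᶠ[𝓝 (τ : ℂ)] cuspFunction 1 f ∘ 𝕢 1 := by
  filter_upwards [isOpen_upperHalfPlaneSet.mem_nhds τ.im_pos] with w hw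
  have := eq_cuspFunction (h := 1) (f := f) ⟨w, hw⟩ one_ne_zero hp.periodic_comp_ofComplex
  simp only [comp_apply, ofComplex_apply_of_im_pos hw]
  exact this.symm

/-- Chain rule: `D f = q · (d/dq) (cuspFunction f)`. -/
theorem D_eq_qH_mul_deriv {f : ℍ → ℂ} (hf : Nice f) (τ : ℍ) :
    D f τ = qH τ * deriv (cuspFunction 1 f) (qH τ) := by
  have hq : ‖qH τ‖ < 1 := Periodic.norm_qParam_lt_one zero_lt_one τ.im_pos
  have hc : DifferentiableAt ℂ (cuspFunction 1 f) (𝕢 1 (τ : ℂ)) :=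
    differentiableAt_cuspFunction zero_lt_one hf.periodic hf.mdiff hf.bdd hq
  have h1 : HasDerivAt (cuspFunction 1 f ∘ 𝕢 1)
      (deriv (cuspFunction 1 f) (𝕢 1 (τ : ℂ)) * (2 * π * I * 𝕢 1 (τ : ℂ))) (τ : ℂ) :=
    hc.hasDerivAt.comp (τ : ℂ) (hasDerivAt_qParam_one (τ : ℂ))
  have h2 := (h1.congr_of_eventuallyEq (comp_ofComplex_eventuallyEq hf.per τ)).deriv
  have hpi : (2 * (π : ℂ) * I) ≠ 0 := Complex.two_pi_I_ne_zero
  simp only [normalizedDerivOfComplex, h2, qH]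
  field_simp

/-- Termwise differentiation of the `q`-expansion: `D f = ∑ n aₙ qⁿ`. -/
theorem hasSum_D {f : ℍ → ℂ} (hf : Nice f) (τ : ℍ) :
    HasSum (fun n : ℕ => ((n : ℂ) * (qExpansion 1 f).coeff n) • qH τ ^ n) (D f τ) := by
  have hc : DifferentiableOn ℂ (cuspFunction 1 f) (Metric.ball 0 1) :=
    differentiableOn_cuspFunction_ball zero_lt_one hf.periodic hf.mdiff hf.bdd
  have hc' : DifferentiableOn ℂ (deriv (cuspFunction 1 f)) (Metric.ball 0 1) :=
    hc.deriv Metric.isOpen_ball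
  have hq : qH τ ∈ Metric.ball (0 : ℂ) 1 := by
    simpa [qH] using Periodic.norm_qParam_lt_one (h := 1) zero_lt_one τ.im_pos
  have h1 := Complex.hasSum_taylorSeries_on_ball hc' hq
  have h2 : HasSum (fun n : ℕ => (((n + 1 : ℕ) : ℂ) * (qExpansion 1 f).coeff (n + 1)) •
      qH τ ^ (n + 1)) (qH τ * deriv (cuspFunction 1 f) (qH τ)) := by
    have h3 := h1.mul_left (qH τ)
    have e : ∀ n : ℕ, (((n + 1 : ℕ) : ℂ) * (qExpansion 1 f).coeff (n + 1)) • qH τ ^ (n + 1) =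
        qH τ * (n.factorial : ℂ)⁻¹ • (qH τ - 0) ^ n •
          iteratedDeriv n (deriv (cuspFunction 1 f)) 0 := by
      intro n
      rw [qExpansion_coeff, iteratedDeriv_succ' (n := n)]
      have hn : ((n + 1 : ℕ) : ℂ) ≠ 0 := by exact_mod_cast Nat.succ_ne_zero n
      have hn' : ((n.factorial : ℕ) : ℂ) ≠ 0 := by exact_mod_cast Nat.factorial_ne_zero n
      simp only [Nat.factorial_succ, Nat.cast_mul, sub_zero, smul_eq_mul, pow_succ]
      field_simp
    rw [show (fun n : ℕ => (((n + 1 : ℕ) : ℂ) * (qExpansion 1 f).coeff (n + 1)) •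
      qH τ ^ (n + 1)) = _ from funext e]
    exact h3
  rw [D_eq_qH_mul_deriv hf τ]
  refine (hasSum_nat_add_iff' 1).mp ?_
  simpa using h2

/-! ### `D` preserves periodicity -/

theorem isPer_D {f : ℍ → ℂ} (_hf : MDiff f) (hp : IsPer 1 f) : IsPer 1 (D f) := by
  have hper : Periodic (f ∘ ofComplex) ((1 : ℝ) : ℂ) := hp.periodic_comp_ofComplex
  have hfun : (fun w : ℂ => (f ∘ ofComplex) (w + ((1 : ℝ) : ℂ))) = f ∘ ofComplex :=
    funext hper
  intro z
  have h1 : deriv (f ∘ ofComplex) ((z : ℂ) + ((1 : ℝ) : ℂ)) = deriv (f ∘ ofComplex) (z : ℂ) := by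
    rw [← deriv_comp_add_const (f ∘ ofComplex) ((1 : ℝ) : ℂ) (z : ℂ), hfun]
  simp only [normalizedDerivOfComplex, coe_vadd]
  rw [add_comm, h1]

/-! ### The bounded case -/

theorem nice_D {f : ℍ → ℂ} (hf : Nice f) : Nice (D f) :=
  ⟨normalizedDerivOfComplex_mdifferentiable hf.mdiff, isPer_D hf.mdiff hf.per,
    isBoundedAtImInfty_of_hasSum_qExpansion zero_lt_one (hasSum_D hf)⟩

theorem qExpansion_D {f : ℍ → ℂ} (hf : Nice f) :
    qExpansion 1 (D f) = PowerSeries.mk fun n : ℕ => (n : ℂ) * (qExpansion 1 f).coeff n :=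
  (nice_D hf).qExpansion_unique (hasSum_D hf)

theorem qExpansion_D_coeff {f : ℍ → ℂ} (hf : Nice f) (n : ℕ) :
    (qExpansion 1 (D f)).coeff n = (n : ℂ) * (qExpansion 1 f).coeff n := by
  rw [qExpansion_D hf, PowerSeries.coeff_mk]

/-! ### Moderate growth -/

theorem D_qH : D qH = qH := by
  funext τ
  have h : qH ∘ ofComplex =ᶠ[𝓝 (τ : ℂ)] 𝕢 1 := by
    filter_upwards [isOpen_upperHalfPlaneSet.mem_nhds τ.im_pos] with w hw
    simp [qH, ofComplex_apply_of_im_pos hw]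
  have h2 := ((hasDerivAt_qParam_one (τ : ℂ)).congr_of_eventuallyEq h).deriv
  have hpi : (2 * (π : ℂ) * I) ≠ 0 := Complex.two_pi_I_ne_zero
  simp only [normalizedDerivOfComplex, h2, qH]
  field_simp

/-- `qᴹ · D f = D (qᴹ f) - M · qᴹ f`. -/
theorem qH_pow_mul_D {f : ℍ → ℂ} (hf : MDiff f) (M : ℕ) :
    (fun z => qH z ^ M * D f z) =
      D (fun z => qH z ^ M * f z) + (fun _ => -(M : ℂ)) * (fun z => qH z ^ M * f z) := by
  have e : (fun z => qH z ^ M * f z) = qH ^ M * f := rfl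
  rw [e, normalizedDerivOfComplex_mul _ _ (qH_mdiff.pow M) hf,
    normalizedDerivOfComplex_pow _ _ qH_mdiff, D_qH]
  funext z
  simp only [Pi.add_apply, Pi.mul_apply, Pi.pow_apply, Pi.natCast_apply]
  cases M with
  | zero => simp
  | succ M =>
    simp only [Nat.add_sub_cancel, pow_succ, Nat.cast_add, Nat.cast_one]
    ring

theorem nice_qH_pow_mul_D {M : ℕ} {f : ℍ → ℂ} (hf : MDiff f) (hp : IsPer 1 f) (h : QBdd M f) :
    Nice (fun z => qH z ^ M * D f z) := by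
  rw [qH_pow_mul_D hf M]
  exact (nice_D (h.nice hf hp)).add ((nice_const _).mul (h.nice hf hp))

theorem qBdd_D {M : ℕ} {f : ℍ → ℂ} (hf : MDiff f) (hp : IsPer 1 f) (h : QBdd M f) :
    QBdd M (D f) :=
  (nice_qH_pow_mul_D hf hp h).bdd

theorem modGrowth_D {f : ℍ → ℂ} (hf : MDiff f) (hp : IsPer 1 f) (hg : ModGrowth f) :
    ModGrowth (D f) := by
  obtain ⟨M, hM⟩ := modGrowth_iff.mp hg
  exact modGrowth_iff.mpr ⟨M, qBdd_D hf hp hM⟩

theorem qExpansion_qH_pow_mul_D_coeff {M : ℕ} {f : ℍ → ℂ} (hf : MDiff f) (hp : IsPer 1 f)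
    (h : QBdd M f) (n : ℕ) :
    (qExpansion 1 (fun z => qH z ^ M * D f z)).coeff n =
      ((n : ℂ) - (M : ℂ)) * (qExpansion 1 (fun z => qH z ^ M * f z)).coeff n := by
  have hB := h.nice hf hp
  rw [qH_pow_mul_D hf M, (nice_D hB).qExpansion_add ((nice_const _).mul hB),
    (nice_const _).qExpansion_mul hB, qExpansion_const, map_add, qExpansion_D_coeff hB,
    PowerSeries.coeff_C_mul]
  ring

/-- The operator `D` on `PerFun`. -/
noncomputable def dPer (f : PerFun) : PerFun :=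
  PerFun.mk (D (fn f)) (normalizedDerivOfComplex_mdifferentiable (fn_mdiff f))
    (isPer_D (fn_mdiff f) (fn_isPer f)) (modGrowth_D (fn_mdiff f) (fn_isPer f) (fn_modGrowth f))

@[simp] theorem fn_dPer (f : PerFun) : fn (dPer f) = D (fn f) := rfl

/-- On Laurent `q`-expansions, `D` is `q d/dq`. -/
theorem qLaurent_dPer (f : PerFun) :
    qLaurent (dPer f) =
      HahnSeries.single (1 : ℤ) (1 : ℂ) * Fermat.Agent.Lib.Residue.D (qLaurent f) := by
  obtain ⟨M, hM⟩ := exists_qBdd f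
  have hM' : QBdd M (fn (dPer f)) := qBdd_D (fn_mdiff f) (fn_isPer f) hM
  rw [qLaurent_eq_aux (dPer f) hM', qLaurent_eq_aux f hM, qLaurentAux, qLaurentAux, fn_dPer]
  ext k
  rw [Fermat.Agent.Lib.Residue.coeff_single_mul', Fermat.Agent.Lib.Residue.coeff_single_mul',
    Fermat.Agent.Lib.Residue.D_coeff, Fermat.Agent.Lib.Residue.coeff_single_mul', one_mul, one_mul,
    one_mul, sub_add_cancel, sub_neg_eq_add]
  rcases lt_or_ge (k + (M : ℤ)) 0 with hk | hk
  · rw [ModularCurve.ofPowerSeries_coeff_of_neg _ hk, ModularCurve.ofPowerSeries_coeff_of_neg _ hk,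
      mul_zero]
  · obtain ⟨n, hn⟩ := Int.eq_ofNat_of_zero_le hk
    rw [hn, HahnSeries.ofPowerSeries_apply_coeff, HahnSeries.ofPowerSeries_apply_coeff,
      qExpansion_qH_pow_mul_D_coeff (fn_mdiff f) (fn_isPer f) hM]
    congr 1
    have : (k : ℂ) = ((n : ℤ) : ℂ) - ((M : ℤ) : ℂ) := by
      rw [← hn]; push_cast; ring
    rw [this]
    push_cast
    ring

end Fermat.Agent.Gateway.GoodRed.Forms
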