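import Mathlib
import Fermat.Agent.S24.QExp
import Fermat.Agent.S24.QExpFrac
import Fermat.Agent.S24.CuspOrdMer
import Fermat.Agent.Gateway.GoodRed.Forms.QDeriv

/-!
# WP-GR8 (b): `z`-expansions of holomorphic `N`-periodic functions of moderate growth

For `f ∈ cuspFnAlg N` the function `τ ↦ f (N τ)` is `1`-periodic; its Laurent `q`-expansion is the
expansion of `f` in the parameter `z = q^(1/N)`.
-/

set_option autoImplicit false

open UpperHalfPlane Complex Filter
open scoped Manifold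

noncomputable section

namespace Fermat.Agent.Gateway.GoodRed.Forms

open Fermat.Agent.S24 Fermat.Agent.S24.QExp Derivative

variable (N : ℕ) [NeZero N]

/-- The map `w ↦ w / N` on the upper half plane. -/
def divNat (w : ℍ) : ℍ :=
  ⟨(w : ℂ) / (N : ℂ), by
    have hN : (0 : ℝ) < N := by exact_mod_cast Nat.pos_of_ne_zero (NeZero.ne N)
    have : ((w : ℂ) / (N : ℂ)).im = w.im / N := by
      rw [Complex.div_natCast_im]; rfl
    rw [this]
    exact div_pos w.im_pos hN⟩

@[simp] theorem coe_divNat (w : ℍ) : (divNat N w : ℂ) = (w : ℂ) / (N : ℂ) := rfl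

theorem mulNat_divNat (w : ℍ) : mulNat N (divNat N w) = w := by
  ext
  have hN : (N : ℂ) ≠ 0 := by exact_mod_cast NeZero.ne N
  rw [coe_mulNat, coe_divNat]
  field_simp

theorem divNat_mulNat (w : ℍ) : divNat N (mulNat N w) = w := by
  ext
  have hN : (N : ℂ) ≠ 0 := by exact_mod_cast NeZero.ne N
  rw [coe_divNat, coe_mulNat]
  field_simp

theorem im_divNat (w : ℍ) : (divNat N w).im = w.im / N := by
  show ((w : ℂ) / (N : ℂ)).im = w.im / N
  rw [Complex.div_natCast_im]; rfl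

theorem mulNat_surjective : Function.Surjective (mulNat N) :=
  fun w => ⟨divNat N w, mulNat_divNat N w⟩

theorem norm_qH (z : ℍ) : ‖qH z‖ = Real.exp (-2 * Real.pi * z.im) := by
  rw [qH, Function.Periodic.norm_qParam]
  simp

/-- Descaling: moderate growth of `τ ↦ g (N τ)` implies moderate growth of `g`. -/
theorem modGrowth_of_comp_mulNat {g : ℍ → ℂ} (h : QExp.ModGrowth (g ∘ mulNat N)) :
    QExp.ModGrowth g := by
  rw [modGrowth_iff] at *
  obtain ⟨M, hM⟩ := h
  refine ⟨M, ?_⟩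
  rw [QBdd, isBoundedAtImInfty_iff] at *
  obtain ⟨C, A, hCA⟩ := hM
  have hN : (0 : ℝ) < N := by exact_mod_cast Nat.pos_of_ne_zero (NeZero.ne N)
  have hN1 : (1 : ℝ) ≤ N := by exact_mod_cast Nat.pos_of_ne_zero (NeZero.ne N)
  refine ⟨C, N * A, fun w hw => ?_⟩
  have h1 : A ≤ (divNat N w).im := by
    rw [im_divNat, le_div_iff₀ hN]
    linarith
  have h2 := hCA (divNat N w) h1
  simp only [Function.comp_apply, mulNat_divNat] at h2
  refine le_trans ?_ h2
  rw [norm_mul, norm_mul, norm_pow, norm_pow]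
  refine mul_le_mul_of_nonneg_right ?_ (norm_nonneg _)
  refine pow_le_pow_left₀ (norm_nonneg _) ?_ M
  rw [norm_qH, norm_qH, im_divNat]
  apply Real.exp_le_exp.mpr
  have hw0 : 0 < w.im := w.im_pos
  have : w.im / N ≤ w.im := div_le_self hw0.le hN1
  have hpi : 0 < Real.pi := Real.pi_pos
  nlinarith

/-! ### The scaling homomorphism `cuspFnAlg N → PerFun` -/

theorem isPer_one_comp_mulNat {f : ℍ → ℂ} (hf : CuspOrd.IsPer N f) :
    QExp.IsPer 1 (f ∘ mulNat N) := by
  intro z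
  simp only [Function.comp_apply]
  rw [← hf (mulNat N z)]
  congr 1
  ext
  simp [mul_add]

theorem isCuspFn_iff_perFun {f : HolFun} :
    f ∈ CuspOrd.cuspFnAlg 1 ↔ f ∈ PerFun := by
  constructor
  · intro h
    exact ⟨fun z => by simpa using h.isPer z, h.growth⟩
  · intro h
    exact ⟨f.2, fun z => by simpa using h.1 z, h.2⟩

/-- Precomposition with `τ ↦ N τ`, from `N`-periodic to `1`-periodic functions. -/
def zScale : CuspOrd.cuspFnAlg N →ₐ[ℂ] PerFun where
  toFun f := PerFun.mk (((f : HolFun) : ℍ → ℂ) ∘ mulNat N)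
    (mdiff_scale (coe_mulNat N) (f : HolFun).2)
    (isPer_one_comp_mulNat N f.2.isPer)
    (QExp.ModGrowth.scale (coe_mulNat N) f.2.growth)
  map_one' := rfl
  map_mul' _ _ := rfl
  map_zero' := rfl
  map_add' _ _ := rfl
  commutes' _ := rfl

@[simp] theorem fn_zScale (f : CuspOrd.cuspFnAlg N) (z : ℍ) :
    fn (zScale N f) z = ((f : HolFun) : ℍ → ℂ) (mulNat N z) := rfl

theorem zScale_injective : Function.Injective (zScale N) := by
  intro f g h
  apply Subtype.ext
  apply HolFun.ext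
  intro w
  have := congrArg (fun p => fn p (divNat N w)) h
  simpa [mulNat_divNat] using this

/-- The expansion in the parameter `z = q^(1/N)`. -/
def zL : CuspOrd.cuspFnAlg N →ₐ[ℂ] LaurentSeries ℂ := qLaurent.comp (zScale N)

theorem zL_apply (f : CuspOrd.cuspFnAlg N) : zL N f = qLaurent (zScale N f) := rfl

theorem zL_injective : Function.Injective (zL N) :=
  qLaurent_injective.comp (zScale_injective N)

/-- For a `1`-periodic function the `z`-expansion is the `q`-expansion with `q = z^N`. -/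
theorem zL_eq_qExpand (f : HolFun) (hf : f ∈ PerFun) (hfN : f ∈ CuspOrd.cuspFnAlg N) :
    zL N ⟨f, hfN⟩ = ModularCurve.qExpand ℂ N (qLaurent ⟨f, hf⟩) := by
  rw [← qLaurent_scale (coe_mulNat N) ⟨f, hf⟩]
  rfl

/-! ### Derivatives -/

/-- Chain rule for `τ ↦ f (N τ)`. -/
theorem D_comp_mulNat {f : ℍ → ℂ} (hf : MDiff f) (z : ℍ) :
    D (f ∘ mulNat N) z = (N : ℂ) * D f (mulNat N z) := by
  have hN : (0 : ℝ) < N := by exact_mod_cast Nat.pos_of_ne_zero (NeZero.ne N)
  simp only [normalizedDerivOfComplex]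
  have h1 : HasDerivAt (f ∘ ofComplex) (deriv (f ∘ ofComplex) ((N : ℂ) * z)) ((N : ℂ) * z) := by
    have := (mdifferentiableAt_iff.mp (hf (mulNat N z))).hasDerivAt
    simpa using this
  have h2 : HasDerivAt (fun w : ℂ => (N : ℂ) * w) (N : ℂ) (z : ℂ) := by
    simpa using (hasDerivAt_id (z : ℂ)).const_mul (N : ℂ)
  have h3 := h1.comp (z : ℂ) h2
  have hev : ((f ∘ mulNat N) ∘ ofComplex) =ᶠ[nhds (z : ℂ)]
      ((f ∘ ofComplex) ∘ fun w : ℂ => (N : ℂ) * w) := by
    filter_upwards [isOpen_upperHalfPlaneSet.mem_nhds z.im_pos] with w hw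
    have hw' : 0 < ((N : ℂ) * w).im := by
      have : ((N : ℂ) * w).im = N * w.im := by simp
      rw [this]
      exact mul_pos hN hw
    simp only [Function.comp_apply]
    rw [ofComplex_apply_of_im_pos hw, ofComplex_apply_of_im_pos hw']
    congr 1
  rw [(h3.congr_of_eventuallyEq hev).deriv]
  simp only [coe_mulNat]
  ring

theorem D_eq_comp_divNat {f : ℍ → ℂ} (hf : MDiff f) (w : ℍ) :
    D f w = (N : ℂ)⁻¹ * D (f ∘ mulNat N) (divNat N w) := by
  have hN : (N : ℂ) ≠ 0 := by exact_mod_cast NeZero.ne N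
  rw [D_comp_mulNat N hf, mulNat_divNat, ← mul_assoc, inv_mul_cancel₀ hN, one_mul]

theorem divNat_vadd (w : ℍ) : divNat N ((N : ℝ) +ᵥ w) = (1 : ℝ) +ᵥ divNat N w := by
  ext
  have hN : (N : ℂ) ≠ 0 := by exact_mod_cast NeZero.ne N
  simp only [coe_divNat, UpperHalfPlane.coe_vadd]
  push_cast
  field_simp

theorem isCuspFn_D {f : ℍ → ℂ} (hf : CuspOrd.IsCuspFn N f) : CuspOrd.IsCuspFn N (D f) := by
  have hmd : MDiff (f ∘ mulNat N) := mdiff_scale (coe_mulNat N) hf.mdiff
  have hper : QExp.IsPer 1 (f ∘ mulNat N) := isPer_one_comp_mulNat N hf.isPer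
  have hgr : QExp.ModGrowth (f ∘ mulNat N) := QExp.ModGrowth.scale (coe_mulNat N) hf.growth
  refine ⟨normalizedDerivOfComplex_mdifferentiable hf.mdiff, ?_, ?_⟩
  · intro w
    rw [D_eq_comp_divNat N hf.mdiff, D_eq_comp_divNat N hf.mdiff w, divNat_vadd]
    congr 1
    exact isPer_D hmd hper (divNat N w)
  · apply modGrowth_of_comp_mulNat N
    have h1 : QExp.ModGrowth (D (f ∘ mulNat N)) := modGrowth_D hmd hper hgr
    have h2 : (D f ∘ mulNat N) = (fun _ => (N : ℂ)⁻¹) * D (f ∘ mulNat N) := by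
      funext z
      simp only [Function.comp_apply, Pi.mul_apply]
      rw [D_eq_comp_divNat N hf.mdiff, divNat_mulNat]
    rw [h2]
    exact (QExp.modGrowth_const _).mul h1

/-- The derivative on `cuspFnAlg N`. -/
def dCusp (f : CuspOrd.cuspFnAlg N) : CuspOrd.cuspFnAlg N :=
  ⟨⟨D ((f : HolFun) : ℍ → ℂ), normalizedDerivOfComplex_mdifferentiable (f : HolFun).2⟩,
    isCuspFn_D N f.2⟩

@[simp] theorem coe_dCusp (f : CuspOrd.cuspFnAlg N) :
    (((dCusp N f : CuspOrd.cuspFnAlg N) : HolFun) : ℍ → ℂ) = D ((f : HolFun) : ℍ → ℂ) := rfl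

theorem zScale_dCusp (f : CuspOrd.cuspFnAlg N) :
    zScale N (dCusp N f) = (N : ℂ)⁻¹ • dPer (zScale N f) := by
  apply fn_injective
  funext z
  have hN : (N : ℂ) ≠ 0 := by exact_mod_cast NeZero.ne N
  show D ((f : HolFun) : ℍ → ℂ) (mulNat N z) = (N : ℂ)⁻¹ * D (((f : HolFun) : ℍ → ℂ) ∘ mulNat N) z
  rw [D_comp_mulNat N (f : HolFun).2, ← mul_assoc, inv_mul_cancel₀ hN, one_mul]

/-- **The `z`-expansion of the derivative.** `D = (2πi)⁻¹ d/dτ` acts as `N⁻¹ z d/dz`. -/
theorem zL_dCusp (f : CuspOrd.cuspFnAlg N) :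
    zL N (dCusp N f) = HahnSeries.C ((N : ℂ)⁻¹) *
      (HahnSeries.single (1 : ℤ) (1 : ℂ) * Fermat.Agent.Lib.Residue.D (zL N f)) := by
  rw [zL_apply, zScale_dCusp, Algebra.smul_def, map_mul, AlgHom.commutes, qLaurent_dPer, zL_apply,
    ModularCurve.algebraMap_laurentSeries_eq_single, HahnSeries.C_apply]

/-! ### Functions vanishing at `i∞` -/

theorem tendsto_mulNat : Tendsto (mulNat N) atImInfty atImInfty := tendsto_scale (coe_mulNat N)

/-- If `f` is bounded at `i∞` its `z`-expansion is a power series. -/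
theorem zL_coeff_of_isBoundedAtImInfty (f : CuspOrd.cuspFnAlg N)
    (h : IsBoundedAtImInfty (((f : HolFun) : ℍ → ℂ))) {n : ℤ} (hn : n < 0) :
    (zL N f).coeff n = 0 := by
  have hb : IsBoundedAtImInfty (fn (zScale N f)) := bdd_scale (coe_mulNat N) h
  rw [zL_apply, qLaurent_of_bdd _ hb]
  exact ModularCurve.ofPowerSeries_coeff_of_neg _ hn

/-- If `f` vanishes at `i∞` its `z`-expansion is a power series without constant term. -/
theorem zL_coeff_of_isZeroAtImInfty (f : CuspOrd.cuspFnAlg N)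
    (h : IsZeroAtImInfty (((f : HolFun) : ℍ → ℂ))) {n : ℤ} (hn : n ≤ 0) :
    (zL N f).coeff n = 0 := by
  have hz : IsZeroAtImInfty (fn (zScale N f)) := by
    have : Tendsto ((((f : HolFun) : ℍ → ℂ)) ∘ mulNat N) atImInfty (nhds 0) :=
      Tendsto.comp h (tendsto_mulNat N)
    exact this
  have hb : IsBoundedAtImInfty (fn (zScale N f)) := hz.isBoundedAtImInfty
  rcases lt_or_eq_of_le hn with hn | rfl
  · exact zL_coeff_of_isBoundedAtImInfty N f h.isBoundedAtImInfty hn
  · rw [zL_apply, qLaurent_of_bdd _ hb]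
    have hnice : Nice (fn (zScale N f)) := ⟨fn_mdiff _, fn_isPer _, hb⟩
    have h0 : (qExpansion 1 (fn (zScale N f))).coeff 0 = 0 := by
      rw [qExpansion_coeff_zero zero_lt_one hnice.analyticAt hnice.periodic]
      exact hz.valueAtInfty_eq_zero
    have : ((0 : ℕ) : ℤ) = 0 := rfl
    rw [← this, HahnSeries.ofPowerSeries_apply_coeff]
    exact h0

end Fermat.Agent.Gateway.GoodRed.Forms
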