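import Mathlib
import Fermat.Agent.S20.Free.Defs
import Fermat.Agent.Gateway.Dict.RangeC
import Fermat.Agent.Gateway.GoodRed.Forms.ZExp

/-!
# WP-GR8 (c): the analytic function `h = f / D t`

`θ` is the (analytic) Hauptmodul of an auxiliary level `r₀ ∣ M`, with nowhere vanishing derivative,
`f` a weight two cusp form on `Γ₀(M)`.  The holomorphic function `h = f / D θ` is
`Γ₀(M)`-invariant, all its `SL(2,ℤ)`-translates are holomorphic `M`-periodic of moderate growth,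
and `(g • h) * D (g • θ) = f ∣[2] g⁻¹`.
-/

set_option autoImplicit false
set_option linter.unusedSectionVars false

open UpperHalfPlane Complex Filter ModularForm
open scoped Manifold MatrixGroups ModularForm

noncomputable section

namespace Fermat.Agent.Gateway.GoodRed.Forms

open Fermat.Agent.S24 Fermat.Agent.S24.QExp Derivative
open Fermat.Agent.S24.CuspOrd (cuspFnAlg IsCuspFn IsCuspMer)

/-! ### General lemmas on `cuspFnAlg` -/

/-- A holomorphic quotient of cusp functions is a cusp function. -/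
theorem mem_cuspFnAlg_of_mul_eq {N : ℕ} (hN : 0 < N) {h a b : HolFun} (ha : a ∈ cuspFnAlg N)
    (hb : b ∈ cuspFnAlg N) (hb0 : b ≠ 0) (hab : h * b = a) : h ∈ cuspFnAlg N := by
  refine ⟨h.2, ?_, ?_⟩
  · -- periodicity
    intro z
    -- `(h(·+N) - h) * b = 0`
    have key : ∀ w : ℍ, ((h : ℍ → ℂ) ((N : ℝ) +ᵥ w) - (h : ℍ → ℂ) w) * (b : ℍ → ℂ) w = 0 := by
      intro w
      have h1 : (h : ℍ → ℂ) w * (b : ℍ → ℂ) w = (a : ℍ → ℂ) w := by
        rw [← hab]; rfl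
      have h2 : (h : ℍ → ℂ) ((N : ℝ) +ᵥ w) * (b : ℍ → ℂ) ((N : ℝ) +ᵥ w)
          = (a : ℍ → ℂ) ((N : ℝ) +ᵥ w) := by
        rw [← hab]; rfl
      rw [hb.isPer w, ha.isPer w] at h2
      rw [sub_mul, h1, h2, sub_self]
    set d : HolFun := ⟨fun w => (h : ℍ → ℂ) ((N : ℝ) +ᵥ w) - (h : ℍ → ℂ) w,
      (CuspOrd.mdiff_vadd h.2 N).sub h.2⟩ with hd
    have hdb : d * b = 0 := by
      apply HolFun.ext
      intro w
      exact key w
    rcases mul_eq_zero.mp hdb with h0 | h0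
    · have := congrArg (fun g : HolFun => (g : ℍ → ℂ) z) h0
      simpa [hd, sub_eq_zero] using this
    · exact absurd h0 hb0
  · -- moderate growth
    have hb0' : (b : ℍ → ℂ) ≠ 0 := CuspOrd.holFun_ne_zero_iff.mp hb0
    refine Fermat.Agent.Gateway.Dict.CuspBound.modGrowth_of_mul_eq hN h.2 ha hb hb0' ?_
    intro z
    rw [← hab]; rfl

/-- A holomorphic function which is a quotient of cusp functions is a cusp function. -/
theorem mem_cuspFnAlg_of_isCuspMer {N : ℕ} (hN : 0 < N) {h : HolFun}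
    (hh : IsCuspMer N (algebraMap HolFun MerFun h)) : h ∈ cuspFnAlg N := by
  obtain ⟨a, b, ha, hb, hb0, hab⟩ := hh
  have hb0' : algebraMap HolFun MerFun b ≠ 0 := CuspOrd.algebraMap_ne_zero hb0
  refine mem_cuspFnAlg_of_mul_eq hN (a := a) (b := b) ha hb hb0 ?_
  apply IsFractionRing.injective HolFun MerFun
  rw [map_mul, hab, div_mul_cancel₀ _ hb0']

/-! ### Slashes of cusp forms -/

section CuspFormSlash

open CongruenceSubgroup Fermat.Agent.S20.Free

variable {M : ℕ} [NeZero M] {k : ℤ}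

theorem slash_T_zpow_apply (F : ℍ → ℂ) (n : ℕ) (z : ℍ) :
    (F ∣[k] (ModularGroup.T ^ (n : ℤ))) z = F ((n : ℝ) +ᵥ z) := by
  rw [ModularForm.SL_slash_apply, ModularGroup.denom_apply, ModularGroup.coe_T_zpow,
    UpperHalfPlane.modular_T_zpow_smul]
  simp

omit [NeZero M] in
/-- The slashes of a cusp form on `Γ₀(M)` are `M`-periodic. -/
theorem isPer_slash {f : ℍ → ℂ} (hinv : ∀ γ ∈ Gamma0 M, f ∣[k] γ = f) (g : SL(2, ℤ)) :
    CuspOrd.IsPer M (f ∣[k] g) := by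
  intro z
  rw [← slash_T_zpow_apply (k := k) (f ∣[k] g) M z, ← SlashAction.slash_mul]
  have h1 : g * ModularGroup.T ^ (M : ℤ) = (g * ModularGroup.T ^ (M : ℤ) * g⁻¹) * g := by
    group
  have h2 : g * ModularGroup.T ^ (M : ℤ) * g⁻¹ ∈ Gamma0 M := by
    have := JD.conj_T_pow_mem_Gamma0 M g⁻¹
    simpa using this
  rw [h1, SlashAction.slash_mul, hinv _ h2]

theorem isCuspFn_slash (f : CuspForm ((Gamma0 M : Subgroup SL(2, ℤ)) : Subgroup (GL (Fin 2) ℝ)) k)
    (g : SL(2, ℤ)) : IsCuspFn M ((f : ℍ → ℂ) ∣[k] g) ∧ IsZeroAtImInfty ((f : ℍ → ℂ) ∣[k] g) := by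
  obtain ⟨h1, h2, h3⟩ := (isCF_iff (Γ := Gamma0 M) (k := k) (f := (f : ℍ → ℂ))).mp ⟨f, rfl⟩
  refine ⟨⟨?_, isPer_slash h2 g, ?_⟩, h3 g⟩
  · exact h1.slash k _
  · exact ModGrowth.of_isBoundedAtImInfty (h3 g).isBoundedAtImInfty

end CuspFormSlash

/-! ### The analytic Hauptmodul data -/

open CongruenceSubgroup

/-- The analytic input: a holomorphic `Γ₀(M)`-invariant function all of whose translates are cusp
functions of level `M`, with nowhere vanishing derivative. -/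
structure HauptAn (M : ℕ) where
  /-- the function -/
  θ : HolFun
  inv : ∀ γ ∈ Gamma0 M, γ • θ = θ
  cusp : ∀ g : SL(2, ℤ), g • θ ∈ cuspFnAlg M
  dne : ∀ τ : ℍ, D (θ : ℍ → ℂ) τ ≠ 0

section Haupt

variable {M : ℕ} [NeZero M]

/-- Construction of the analytic data from a `q`-expansion lying in the function field. -/
theorem exists_hauptAn (θ : HolFun) (hθ : θ ∈ PerFun)
    (x : Fermat.Agent.Gateway.Dict.SetupC.FC M)
    (hx : qLaurent ⟨θ, hθ⟩ = (x : LaurentSeries ℂ))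
    (hd : ∀ τ : ℍ, D (θ : ℍ → ℂ) τ ≠ 0) :
    ∃ T : HauptAn M, T.θ = θ := by
  have hM : 0 < M := Nat.pos_of_ne_zero (NeZero.ne M)
  have he := Fermat.Agent.Gateway.Dict.EmbedC.embC_eq_of_qLaurent_eq M x hθ hx
  refine ⟨⟨θ, ?_, ?_, hd⟩, rfl⟩
  · intro γ hγ
    apply IsFractionRing.injective HolFun MerFun
    rw [← MerFun.sl_smul_algebraMap, ← he]
    exact Fermat.Agent.Gateway.Dict.EmbedC.embC_fixed M hγ x
  · intro g
    apply mem_cuspFnAlg_of_isCuspMer hM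
    rw [← MerFun.sl_smul_algebraMap, ← he]
    exact Fermat.Agent.Gateway.Dict.EmbedC.isCuspMer_smul_embC M x g

variable (T : HauptAn M)

/-- The translate `g • θ` as a cusp function. -/
def HauptAn.tr (g : SL(2, ℤ)) : cuspFnAlg M := ⟨g • T.θ, T.cusp g⟩

/-- The derivative of `g • θ` as a cusp function. -/
def HauptAn.dtr (g : SL(2, ℤ)) : cuspFnAlg M := dCusp M (T.tr g)

theorem smul_eq_slash_zero (a : HolFun) (g : SL(2, ℤ)) :
    ((g • a : HolFun) : ℍ → ℂ) = (a : ℍ → ℂ) ∣[(0 : ℤ)] g⁻¹ := by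
  funext z
  rw [HolFun.sl_smul_apply, ModularForm.SL_slash_apply]
  simp

/-- Chain rule: `D (g • θ) = (D θ) ∣[2] g⁻¹`. -/
theorem D_smul (a : HolFun) (g : SL(2, ℤ)) :
    D ((g • a : HolFun) : ℍ → ℂ) = (D (a : ℍ → ℂ)) ∣[(2 : ℤ)] g⁻¹ := by
  rw [smul_eq_slash_zero, normalizedDerivOfComplex_SL_slash a.2]
  funext z
  simp

theorem HauptAn.dtr_apply (g : SL(2, ℤ)) (z : ℍ) :
    (((T.dtr g : cuspFnAlg M) : HolFun) : ℍ → ℂ) z =
      D (T.θ : ℍ → ℂ) (g⁻¹ • z) * UpperHalfPlane.denom (g⁻¹ : SL(2, ℤ)) z ^ (-(2 : ℤ)) := by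
  show D ((g • T.θ : HolFun) : ℍ → ℂ) z = _
  rw [D_smul, ModularForm.SL_slash_apply]

theorem HauptAn.dtr_ne_zero (g : SL(2, ℤ)) (z : ℍ) :
    (((T.dtr g : cuspFnAlg M) : HolFun) : ℍ → ℂ) z ≠ 0 := by
  rw [T.dtr_apply]
  exact mul_ne_zero (T.dne _) (zpow_ne_zero _ (UpperHalfPlane.denom_ne_zero _ _))

end Haupt

/-! ### The function `h = f / D θ` -/

section Form

variable {M : ℕ} [NeZero M] (T : HauptAn M)
  (f : CuspForm ((Gamma0 M : Subgroup SL(2, ℤ)) : Subgroup (GL (Fin 2) ℝ)) 2)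

/-- The cusp function `f ∣[2] g⁻¹`. -/
def fsl (g : SL(2, ℤ)) : cuspFnAlg M :=
  ⟨⟨(f : ℍ → ℂ) ∣[(2 : ℤ)] g⁻¹, (isCuspFn_slash f g⁻¹).1.mdiff⟩, (isCuspFn_slash f g⁻¹).1⟩

theorem fsl_apply (g : SL(2, ℤ)) (z : ℍ) :
    (((fsl f g : cuspFnAlg M) : HolFun) : ℍ → ℂ) z =
      f (g⁻¹ • z) * UpperHalfPlane.denom (g⁻¹ : SL(2, ℤ)) z ^ (-(2 : ℤ)) := by
  show ((f : ℍ → ℂ) ∣[(2 : ℤ)] g⁻¹) z = _
  rw [ModularForm.SL_slash_apply]

theorem fsl_isZeroAtImInfty (g : SL(2, ℤ)) :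
    IsZeroAtImInfty (((fsl f g : cuspFnAlg M) : HolFun) : ℍ → ℂ) :=
  (isCuspFn_slash f g⁻¹).2

/-- The holomorphic function `h = f / D θ`. -/
def han : HolFun :=
  ⟨fun z => f z / D (T.θ : ℍ → ℂ) z, by
    have hf := UpperHalfPlane.mdifferentiable_iff.mp f.holo'
    have hd := UpperHalfPlane.mdifferentiable_iff.mp
      (normalizedDerivOfComplex_mdifferentiable T.θ.2)
    refine UpperHalfPlane.mdifferentiable_iff.mpr ((hf.div hd ?_).congr ?_)
    · intro w hw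
      exact T.dne _
    · intro w hw
      rfl⟩

theorem han_apply (z : ℍ) : ((han T f : HolFun) : ℍ → ℂ) z = f z / D (T.θ : ℍ → ℂ) z := rfl

/-- **The key identity** `(g • h) * D (g • θ) = f ∣[2] g⁻¹`. -/
theorem smul_han_mul (g : SL(2, ℤ)) :
    (g • han T f) * ((T.dtr g : cuspFnAlg M) : HolFun) = ((fsl f g : cuspFnAlg M) : HolFun) := by
  apply HolFun.ext
  intro z
  rw [HolFun.coe_mul_apply, HolFun.sl_smul_apply, han_apply, T.dtr_apply, fsl_apply]
  have := T.dne (g⁻¹ • z)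
  field_simp

theorem dtr_ne_zero' (g : SL(2, ℤ)) : ((T.dtr g : cuspFnAlg M) : HolFun) ≠ 0 := by
  intro h
  have := congrArg (fun a : HolFun => (a : ℍ → ℂ) UpperHalfPlane.I) h
  exact T.dtr_ne_zero g _ this

theorem smul_han_mem (g : SL(2, ℤ)) : g • han T f ∈ cuspFnAlg M :=
  mem_cuspFnAlg_of_mul_eq (Nat.pos_of_ne_zero (NeZero.ne M)) (fsl f g).2 (T.dtr g).2
    (dtr_ne_zero' T g) (smul_han_mul T f g)

/-- The translate `g • h` as a cusp function. -/
def hsl (g : SL(2, ℤ)) : cuspFnAlg M := ⟨g • han T f, smul_han_mem T f g⟩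

theorem hsl_mul (g : SL(2, ℤ)) : hsl T f g * T.dtr g = fsl f g :=
  Subtype.ext (smul_han_mul T f g)

theorem han_inv (γ : SL(2, ℤ)) (hγ : γ ∈ Gamma0 M) : γ • han T f = han T f := by
  apply HolFun.ext
  intro z
  rw [HolFun.sl_smul_apply, han_apply, han_apply]
  obtain ⟨-, h2, -⟩ := (Fermat.Agent.S20.Free.isCF_iff (Γ := Gamma0 M) (k := 2)
    (f := (f : ℍ → ℂ))).mp ⟨f, rfl⟩
  have hγ' : γ⁻¹ ∈ Gamma0 M := inv_mem hγ
  have e1 := congrFun (h2 γ⁻¹ hγ') z
  rw [ModularForm.SL_slash_apply] at e1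
  have e2 : D (T.θ : ℍ → ℂ) (γ⁻¹ • z) * UpperHalfPlane.denom (γ⁻¹ : SL(2, ℤ)) z ^ (-(2 : ℤ))
      = D (T.θ : ℍ → ℂ) z := by
    have := congrFun (D_smul T.θ γ) z
    rw [T.inv γ hγ, ModularForm.SL_slash_apply] at this
    exact this.symm
  have hden : UpperHalfPlane.denom (γ⁻¹ : SL(2, ℤ)) z ^ (-(2 : ℤ)) ≠ 0 :=
    zpow_ne_zero _ (UpperHalfPlane.denom_ne_zero _ _)
  rw [← e1, ← e2, mul_div_mul_right _ _ hden]

theorem han_mem_growthAlg : han T f ∈ SymmFn.growthAlg := fun γ => (smul_han_mem T f γ).growth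

/-- `h` lies in the image of the analytic embedding of `ℂ(X₀(M))`. -/
theorem exists_embC_eq_han :
    ∃ x : Fermat.Agent.Gateway.Dict.SetupC.FC M,
      Fermat.Agent.Gateway.Dict.EmbedC.embC M x = algebraMap HolFun MerFun (han T f) := by
  have := (Fermat.Agent.Gateway.Dict.RangeC.mem_range_embC_iff M
    (algebraMap HolFun MerFun (han T f))).mpr ⟨?_, ?_⟩
  · exact this
  · intro γ hγ
    rw [MerFun.sl_smul_algebraMap, han_inv T f γ hγ]
  · intro g
    rw [MerFun.sl_smul_algebraMap]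
    exact CuspOrd.isCuspMer_algebraMap (smul_han_mem T f g)

/-! ### `q`-expansions at `i∞` -/

omit [NeZero M] in
theorem T_mem_Gamma0 : ModularGroup.T ∈ Gamma0 M := by
  rw [Gamma0_mem]
  simp [ModularGroup.T]

omit [NeZero M] in
theorem isPer_one_of_inv {a : HolFun} (ha : ∀ γ ∈ Gamma0 M, γ • a = a) :
    QExp.IsPer 1 (a : ℍ → ℂ) := by
  intro z
  have h1 := ha _ (inv_mem (T_mem_Gamma0 (M := M)))
  have h2 := congrArg (fun b : HolFun => (b : ℍ → ℂ) z) h1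
  simp only [HolFun.sl_smul_apply, inv_inv] at h2
  rw [← h2, UpperHalfPlane.modular_T_smul]

theorem theta_mem_perFun : T.θ ∈ PerFun := by
  refine ⟨isPer_one_of_inv T.inv, ?_⟩
  have := (T.cusp 1).growth
  rwa [one_smul] at this

theorem han_mem_perFun : han T f ∈ PerFun := by
  refine ⟨isPer_one_of_inv (han_inv T f), ?_⟩
  have := (smul_han_mem T f 1).growth
  rwa [one_smul] at this

theorem form_isBounded : IsBoundedAtImInfty (f : ℍ → ℂ) := by
  have := (fsl_isZeroAtImInfty f 1).isBoundedAtImInfty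
  have h1 : (((fsl f 1 : cuspFnAlg M) : HolFun) : ℍ → ℂ) = f := by
    show (f : ℍ → ℂ) ∣[(2 : ℤ)] (1 : SL(2, ℤ))⁻¹ = f
    rw [inv_one, SlashAction.slash_one]
  rwa [h1] at this

theorem form_mem_perFun : (⟨f, f.holo'⟩ : HolFun) ∈ PerFun := by
  refine ⟨?_, ModGrowth.of_isBoundedAtImInfty (form_isBounded f)⟩
  obtain ⟨-, h2, -⟩ := (Fermat.Agent.S20.Free.isCF_iff (Γ := Gamma0 M) (k := 2)
    (f := (f : ℍ → ℂ))).mp ⟨f, rfl⟩
  intro z
  have h1 := congrFun (h2 _ (T_mem_Gamma0 (M := M))) z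
  rw [ModularForm.SL_slash_apply, ModularGroup.denom_apply] at h1
  have hT10 : (ModularGroup.T : SL(2, ℤ)) 1 0 = 0 := by simp [ModularGroup.T]
  have hT11 : (ModularGroup.T : SL(2, ℤ)) 1 1 = 1 := by simp [ModularGroup.T]
  rw [hT10, hT11, UpperHalfPlane.modular_T_smul] at h1
  simpa using h1

/-- **`q`-expansion of `h`**: `h * q dθ/dq = f` as Laurent series. -/
theorem qLaurent_han_mul :
    qLaurent ⟨han T f, han_mem_perFun T f⟩ *
        (HahnSeries.single (1 : ℤ) (1 : ℂ) *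
          Fermat.Agent.Lib.Residue.D (qLaurent ⟨T.θ, theta_mem_perFun T⟩)) =
      HahnSeries.ofPowerSeries ℤ ℂ (qExpansion 1 (f : ℍ → ℂ)) := by
  rw [← qLaurent_dPer, ← map_mul]
  have h1 : (⟨han T f, han_mem_perFun T f⟩ : PerFun) * dPer ⟨T.θ, theta_mem_perFun T⟩ =
      ⟨⟨f, f.holo'⟩, form_mem_perFun f⟩ := by
    apply fn_injective
    funext z
    show (f z / D (T.θ : ℍ → ℂ) z) * D (T.θ : ℍ → ℂ) z = f z
    exact div_mul_cancel₀ _ (T.dne z)
  rw [h1]
  exact qLaurent_of_bdd _ (form_isBounded f)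

/-- **Integrality over `ℂ[j]`** of the preimage of `h` in the function field. -/
theorem exists_monic_relation (x : Fermat.Agent.Gateway.Dict.SetupC.FC M)
    (hx : Fermat.Agent.Gateway.Dict.EmbedC.embC M x = algebraMap HolFun MerFun (han T f)) :
    ∃ (n : ℕ) (p : ℕ → Polynomial ℂ),
      x ^ n + ∑ i ∈ Finset.range n,
        Polynomial.aeval (Fermat.Agent.Gateway.Dict.SetupC.jF M) (p i) * x ^ i = 0 := by
  obtain ⟨p, hp1, hrel⟩ := SymmFn.exists_relation (Gamma0 M) (han T f) (han_inv T f)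
    (han_mem_growthAlg T f)
  refine ⟨(Gamma0 M).index, p, ?_⟩
  apply Fermat.Agent.Gateway.Dict.EmbedC.embC_injective M
  have hae : ∀ q : Polynomial ℂ, Fermat.Agent.Gateway.Dict.EmbedC.embC M
      (Polynomial.aeval (Fermat.Agent.Gateway.Dict.SetupC.jF M) q) =
      algebraMap HolFun MerFun (Polynomial.aeval jHol q) := fun q =>
    Fermat.Agent.Gateway.Dict.DegreeC.emb_aeval (Fermat.Agent.Gateway.Dict.EmbedC.embData M) q
  rw [map_add, map_pow, map_sum, map_zero, hx]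
  simp only [map_mul, map_pow, hae, hx]
  rw [Finset.sum_range_succ, hp1, one_mul] at hrel
  have := congrArg (algebraMap HolFun MerFun) hrel
  rw [map_add, map_sum, map_pow, map_zero] at this
  simp only [map_mul, map_pow] at this
  rw [add_comm]
  exact this

/-! ### `z`-expansions at all cusps -/

/-- **Regularity at the cusps**, analytic form: the `z`-expansion of `(g • h) * d(g • θ)/dz` is a
power series. -/
theorem zL_hsl_mul_D (g : SL(2, ℤ)) {n : ℤ} (hn : n < 0) :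
    (zL M (hsl T f g) * Fermat.Agent.Lib.Residue.D (zL M (T.tr g))).coeff n = 0 := by
  have hM : (M : ℂ) ≠ 0 := by exact_mod_cast NeZero.ne M
  have h1 : zL M (hsl T f g) * zL M (T.dtr g) = zL M (fsl f g) := by
    rw [← map_mul, hsl_mul]
  rw [HauptAn.dtr, zL_dCusp] at h1
  have h2 : zL M (hsl T f g) * Fermat.Agent.Lib.Residue.D (zL M (T.tr g)) =
      HahnSeries.C (M : ℂ) * (HahnSeries.single (-1 : ℤ) (1 : ℂ) * zL M (fsl f g)) := by
    rw [← h1]
    have e1 : HahnSeries.C (M : ℂ) * HahnSeries.C ((M : ℂ)⁻¹) = (1 : LaurentSeries ℂ) := by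
      rw [← map_mul, mul_inv_cancel₀ hM, map_one]
    have e2 : HahnSeries.single (-1 : ℤ) (1 : ℂ) * HahnSeries.single (1 : ℤ) (1 : ℂ) =
        (1 : LaurentSeries ℂ) := by
      rw [HahnSeries.single_mul_single]
      simp
    calc zL M (hsl T f g) * Fermat.Agent.Lib.Residue.D (zL M (T.tr g))
        = (HahnSeries.C (M : ℂ) * HahnSeries.C ((M : ℂ)⁻¹)) *
          ((HahnSeries.single (-1 : ℤ) (1 : ℂ) * HahnSeries.single (1 : ℤ) (1 : ℂ)) *
            (zL M (hsl T f g) * Fermat.Agent.Lib.Residue.D (zL M (T.tr g)))) := by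
          rw [e1, e2, one_mul, one_mul]
      _ = _ := by ring
  rw [h2, HahnSeries.C_apply, Fermat.Agent.Lib.Residue.coeff_single_mul',
    Fermat.Agent.Lib.Residue.coeff_single_mul']
  have : n - 0 - -1 ≤ 0 := by omega
  rw [zL_coeff_of_isZeroAtImInfty M (fsl f g) (fsl_isZeroAtImInfty f g) this, mul_zero, mul_zero]

end Form

end Fermat.Agent.Gateway.GoodRed.Forms
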