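import Mathlib
import Fermat.Agent.S24.Setup
import Fermat.Agent.Gateway.Dict.SetupC
import Fermat.Agent.Gateway.BaseChange.Fixed

/-!
# P-GATEWAY (c) GoodRed, WP-GR8e `Descent` (helper4; sub-package of WP-GR8 Forms, owner helper56)

Descent from `ℂ` to `ℚ̄` for the modular function fields, along the fixed embedding
`iota : ℚ̄ → ℂ` of `S24/Setup.lean`:

* `mem_bar_of_coeffMap_mem` : `coeffMap iota y ∈ F_ℂ(M) → y ∈ F_ℚ̄(M)`;
* `bar_le_bar` : `r ∣ M → F_ℚ̄(r) ≤ F_ℚ̄(M)`;
* `isIntegral_of_relation` : a monic relation over `ℂ[j]` for `x = iota y` gives integrality of `y`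
  over `ℚ̄[j]` (slice trick: apply a `ℚ̄`-linear retraction of `iota` coefficientwise).
-/

set_option autoImplicit false

noncomputable section

open ModularCurve Fermat.Agent.S24.Setup

namespace Fermat.Agent.Gateway.GoodRed.Forms

open Fermat.Agent.Gateway.BaseChange

/-- **(1)** Descent of membership: `F_ℂ(M) ∩ iota(ℚ̄((q))) = iota(F_ℚ̄(M))`. -/
theorem mem_bar_of_coeffMap_mem (M : ℕ) {y : LaurentSeries Kbar}
    (hy : coeffMap iota y ∈ laurentBaseChange ℂ (modularFunctionFieldFull M)) :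
    y ∈ modularFunctionFieldBar M := by
  letI : Algebra Kbar ℂ := iota.toAlgebra
  haveI : IsScalarTower ℚ Kbar ℂ :=
    IsScalarTower.of_algebraMap_eq fun c => (iotaAlg.commutes c).symm
  exact (isBC_laurentBaseChange Kbar ℂ (modularFunctionFieldFull M)).mem_of_iota_mem hy

/-- **(2)** The modular function fields over `ℚ̄` are increasing along divisibility. -/
theorem bar_le_bar {r M : ℕ} [NeZero r] [NeZero M] (h : r ∣ M) :
    modularFunctionFieldBar r ≤ modularFunctionFieldBar M := by
  show laurentBaseChange Kbar (modularFunctionFieldFull r) ≤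
    laurentBaseChange Kbar (modularFunctionFieldFull M)
  rw [laurentBaseChange, IntermediateField.adjoin_le_iff]
  rintro _ ⟨z, hz, rfl⟩
  exact coeffEmb_mem_laurentBaseChange Kbar (full_degeneracy_le h hz)

/-- The coefficientwise retraction sends a `ℂ[J]`-combination of powers of `X = iota y`
to the corresponding `ℚ̄[j]`-combination of powers of `y`. -/
private theorem slice_aeval_mul_pow [Algebra Kbar ℂ] (φ : ℂ →ₗ[Kbar] Kbar)
    (P : Polynomial ℂ) (jk y : LaurentSeries Kbar) (i : ℕ) :
    slice φ (Polynomial.aeval (BaseChange.iota Kbar ℂ jk) P * BaseChange.iota Kbar ℂ y ^ i)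
      = (∑ k ∈ Finset.range (P.natDegree + 1),
          algebraMap Kbar (LaurentSeries Kbar) (φ (P.coeff k)) * jk ^ k) * y ^ i := by
  rw [Polynomial.aeval_eq_sum_range, Finset.sum_mul, map_sum, Finset.sum_mul]
  refine Finset.sum_congr rfl fun k _ => ?_
  rw [Algebra.smul_def, mul_assoc, ← map_pow, ← map_pow, ← map_mul, slice_const_mul_iota,
    mul_assoc]

/-- The relation of `isIntegral_of_relation`, read inside `LaurentSeries ℂ`. -/
private theorem coe_relation (M : ℕ) [NeZero M]
    (x : Fermat.Agent.Gateway.Dict.SetupC.FC M) (n : ℕ) (p : ℕ → Polynomial ℂ)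
    (hrel : x ^ n + ∑ i ∈ Finset.range n,
      Polynomial.aeval (Fermat.Agent.Gateway.Dict.SetupC.jF M) (p i) * x ^ i = 0) :
    (x : LaurentSeries ℂ) ^ n + ∑ i ∈ Finset.range n,
      Polynomial.aeval (coeffMap iota (jK 1)) (p i) * (x : LaurentSeries ℂ) ^ i = 0 := by
  have h1 := congrArg (Fermat.Agent.Gateway.Dict.SetupC.phi M) hrel
  rw [map_add, map_pow, map_sum, map_zero] at h1
  have hcomp : (Fermat.Agent.Gateway.Dict.SetupC.phi M).comp
      (algebraMap ℂ (Fermat.Agent.Gateway.Dict.SetupC.FC M)) = algebraMap ℂ (LaurentSeries ℂ) :=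
    RingHom.ext fun c => Fermat.Agent.Gateway.Dict.SetupC.phi_algebraMap M c
  have haev : ∀ P : Polynomial ℂ, Fermat.Agent.Gateway.Dict.SetupC.phi M
      (Polynomial.aeval (Fermat.Agent.Gateway.Dict.SetupC.jF M) P)
      = Polynomial.aeval (coeffMap iota (jK 1)) P := by
    intro P
    rw [Polynomial.aeval_def, Polynomial.hom_eval₂, hcomp, Polynomial.aeval_def,
      coeffMap_iota_jK, ← Fermat.Agent.Gateway.Dict.SetupC.jC_eq]
    rfl
  simp only [map_mul, map_pow, haev] at h1
  exact h1

/-- A monic relation `y ^ n + ∑_{i<n} a_i y ^ i = 0` gives integrality. -/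
private theorem isIntegral_of_monic_relation {R A : Type*} [CommRing R] [CommRing A]
    [Algebra R A] (y : A) (n : ℕ) (a : ℕ → R)
    (h : y ^ n + ∑ i ∈ Finset.range n, algebraMap R A (a i) * y ^ i = 0) : IsIntegral R y := by
  refine ⟨Polynomial.X ^ n + ∑ i : Fin n, Polynomial.C (a (i : ℕ)) * Polynomial.X ^ (i : ℕ),
    Polynomial.monic_X_pow_add (Polynomial.degree_sum_fin_lt fun i : Fin n => a (i : ℕ)), ?_⟩
  rw [Polynomial.eval₂_add, Polynomial.eval₂_pow, Polynomial.eval₂_X, Polynomial.eval₂_finsetSum]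
  simp only [Polynomial.eval₂_mul, Polynomial.eval₂_C, Polynomial.eval₂_pow, Polynomial.eval₂_X]
  rw [← h, Finset.sum_range]

/-- A monic relation with coefficients in `ℚ̄[j]`, read inside `LaurentSeries ℚ̄`, gives
integrality over `ℚ̄[j]`. -/
private theorem isIntegral_of_bar_relation (M : ℕ) [NeZero M] (y : FF M) (n : ℕ)
    (d : ℕ → ℕ) (c : ℕ → ℕ → Kbar)
    (h : (y : LaurentSeries Kbar) ^ n + ∑ i ∈ Finset.range n,
      (∑ k ∈ Finset.range (d i), algebraMap Kbar (LaurentSeries Kbar) (c i k) * jK 1 ^ k)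
        * (y : LaurentSeries Kbar) ^ i = 0) :
    IsIntegral (Algebra.adjoin Kbar {jF M}) y := by
  let a : ℕ → Algebra.adjoin Kbar {jF M} := fun i =>
    ⟨∑ k ∈ Finset.range (d i), algebraMap Kbar (FF M) (c i k) * jF M ^ k,
      Subalgebra.sum_mem _ fun k _ =>
        Subalgebra.mul_mem _ (Subalgebra.algebraMap_mem _ _)
          (Subalgebra.pow_mem _ (Algebra.subset_adjoin (Set.mem_singleton _)) k)⟩
  have h3 : y ^ n + ∑ i ∈ Finset.range n, (a i : FF M) * y ^ i = 0 := by
    apply (algebraMap (FF M) (LaurentSeries Kbar)).injective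
    have hcomp' : ∀ c : Kbar, (algebraMap (FF M) (LaurentSeries Kbar)) (algebraMap Kbar (FF M) c)
        = algebraMap Kbar (LaurentSeries Kbar) c := fun _ => rfl
    have hj : (algebraMap (FF M) (LaurentSeries Kbar)) (jF M) = jK 1 := rfl
    rw [map_add, map_pow, map_sum, map_zero]
    simp only [map_mul, map_pow, map_sum, a, hcomp', hj]
    exact h
  exact isIntegral_of_monic_relation y n a h3

/-- **(3)** Descent of integrality over `ℂ[j]` to integrality over `ℚ̄[j]`. -/
theorem isIntegral_of_relation (M : ℕ) [NeZero M] (y : FF M)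
    (x : Fermat.Agent.Gateway.Dict.SetupC.FC M)
    (hxy : (x : LaurentSeries ℂ) = coeffMap iota (y : LaurentSeries Kbar)) (n : ℕ)
    (p : ℕ → Polynomial ℂ)
    (hrel : x ^ n + ∑ i ∈ Finset.range n,
      Polynomial.aeval (Fermat.Agent.Gateway.Dict.SetupC.jF M) (p i) * x ^ i = 0) :
    IsIntegral (Algebra.adjoin Kbar {jF M}) y := by
  have h1 := coe_relation M x n p hrel
  rw [hxy] at h1
  letI : Algebra Kbar ℂ := iota.toAlgebra
  obtain ⟨φ, hφ⟩ := LinearMap.exists_leftInverse_of_injective (Algebra.linearMap Kbar ℂ)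
    (LinearMap.ker_eq_bot.mpr (algebraMap Kbar ℂ).injective)
  have hφ1 : φ 1 = 1 := by
    have h := LinearMap.congr_fun hφ 1
    simpa using h
  -- apply the slice
  have h2 := congrArg (slice φ) h1
  rw [map_add, map_sum, map_zero] at h2
  have hpow : slice φ (BaseChange.iota Kbar ℂ (y : LaurentSeries Kbar) ^ n)
      = (y : LaurentSeries Kbar) ^ n := by
    have := slice_const_mul_iota φ (1 : ℂ) ((y : LaurentSeries Kbar) ^ n)
    rwa [map_one, one_mul, hφ1, map_one, one_mul, map_pow] at this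
  have h4 : (y : LaurentSeries Kbar) ^ n + ∑ i ∈ Finset.range n,
      (∑ k ∈ Finset.range ((p i).natDegree + 1),
        algebraMap Kbar (LaurentSeries Kbar) (φ ((p i).coeff k)) * jK 1 ^ k)
        * (y : LaurentSeries Kbar) ^ i = 0 := by
    rw [← h2]
    congr 1
    · exact hpow.symm
    · refine Finset.sum_congr rfl fun i _ => ?_
      exact (slice_aeval_mul_pow φ (p i) (jK 1) (y : LaurentSeries Kbar) i).symm
  exact isIntegral_of_bar_relation M y n (fun i => (p i).natDegree + 1)
    (fun i k => φ ((p i).coeff k)) h4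

end Fermat.Agent.Gateway.GoodRed.Forms
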