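import Mathlib

/-!
# WP-GR8 (f0): two abstract lemmas on ring homomorphisms between fields

* `liftThrough`: lifting a ring hom through an injective ring hom whose range contains its range.
* `exists_eq_of_card`: a family of `n = [F : E₀]` pairwise distinct `E₀`-embeddings of `F` into a
  field exhausts all `E₀`-embeddings.
-/

set_option autoImplicit false

noncomputable section

namespace Fermat.Agent.Gateway.GoodRed.Forms

section Lift

variable {A B C : Type*} [Ring A] [Ring B] [Ring C]

/-- Lift `f : A →+* C` through an injective `i : B →+* C` whose range contains the range of `f`. -/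
def liftThrough (i : B →+* C) (hi : Function.Injective i) (f : A →+* C)
    (hf : ∀ a, f a ∈ i.range) : A →+* B :=
  ((RingEquiv.ofLeftInverse (g := Function.invFun i)
    (Function.leftInverse_invFun hi)).symm : i.range →+* B).comp (f.codRestrict i.range hf)

theorem liftThrough_spec (i : B →+* C) (hi : Function.Injective i) (f : A →+* C)
    (hf : ∀ a, f a ∈ i.range) (a : A) : i (liftThrough i hi f hf a) = f a := by
  obtain ⟨b, hb⟩ := hf a
  have h1 : liftThrough i hi f hf a = b := by
    apply hi
    simp only [liftThrough, RingHom.coe_comp, RingHom.coe_coe, Function.comp_apply]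
    rw [RingEquiv.ofLeftInverse_symm_apply]
    simp only [RingHom.codRestrict_apply]
    rw [← hb, Function.leftInverse_invFun hi b]
  rw [h1, hb]

theorem liftThrough_eq (i : B →+* C) (hi : Function.Injective i) (f : A →+* C)
    (hf : ∀ a, f a ∈ i.range) {a : A} {b : B} (h : i b = f a) :
    liftThrough i hi f hf a = b :=
  hi (by rw [liftThrough_spec, h])

end Lift

section Count

variable {E0 F Ω ι : Type*} [Field E0] [Field F] [Algebra E0 F] [FiniteDimensional E0 F]
  [Field Ω] [Fintype ι]

/-- A family of `[F : E₀]` pairwise distinct embeddings of `F` into a field `Ω`, agreeing on `E₀`,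
contains every embedding agreeing with them on `E₀`. -/
theorem exists_eq_of_card (τ : ι → (F →+* Ω)) (hτ : Function.Injective τ)
    (hagree : ∀ i i' e, τ i (algebraMap E0 F e) = τ i' (algebraMap E0 F e))
    (hcard : Module.finrank E0 F ≤ Fintype.card ι) (σ : F →+* Ω) (i0 : ι)
    (hσ : ∀ e, σ (algebraMap E0 F e) = τ i0 (algebraMap E0 F e)) : ∃ i, σ = τ i := by
  classical
  let _ : Algebra E0 Ω := ((τ i0).comp (algebraMap E0 F)).toAlgebra
  let T : ι → (F →ₐ[E0] Ω) := fun i =>
    { τ i with commutes' := fun e => hagree i i0 e }
  have hT : Function.Injective T := by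
    intro i i' h
    apply hτ
    ext x
    exact DFunLike.congr_fun h x
  let S : F →ₐ[E0] Ω := { σ with commutes' := fun e => hσ e }
  have hfin : Finite (F →ₐ[E0] Ω) := inferInstance
  have hle : Nat.card (F →ₐ[E0] Ω) ≤ Nat.card ι := by
    rw [Nat.card_eq_fintype_card (α := ι)]
    exact (card_algHom_le_finrank E0 F Ω).trans hcard
  have hbij : Function.Bijective T := by
    refine (Nat.bijective_iff_injective_and_card T).mpr ⟨hT, ?_⟩
    exact le_antisymm (Nat.card_le_card_of_injective T hT) hle
  obtain ⟨i, hi⟩ := hbij.2 S
  refine ⟨i, ?_⟩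
  ext x
  exact (DFunLike.congr_fun hi x).symm

end Count

end Fermat.Agent.Gateway.GoodRed.Forms
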