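import Mathlib
import Fermat.Prelude.Thm_ModularCurve_coeffMap_qExpand
import Fermat.Agent.S24.Main
import Fermat.Agent.S24.EmbedTheta
import Fermat.Agent.S24.HDeg
import Fermat.Agent.Gateway.Dict.RangeC
import Fermat.Agent.Gateway.BaseChange.Fixed
import Fermat.Agent.Gateway.GoodRed.Forms.ZExp
import Fermat.Agent.Gateway.GoodRed.Forms.EmbAbs

/-!
# WP-GR8 (f): every `K(j)`-embedding `F_M → K((z))` is an analytic one

For `g ∈ SL(2,ℤ)` the map `x ↦ z`-expansion of `g • emb x` is a ring hom `tau g : F_M → ℂ((z))`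
over `j ↦ j(z^M)`.  These give `[SL(2,ℤ) : Γ₀(M)] = [F_M : K(j)]` pairwise distinct embeddings,
hence every ring hom `σ : F_M → K((z))` which is the identity on constants and sends `j` to
`j(z^M)` is, after extending coefficients to `ℂ`, one of them.
-/

set_option autoImplicit false
set_option linter.unusedSectionVars false

open UpperHalfPlane ModularCurve CongruenceSubgroup IntermediateField
open scoped MatrixGroups

noncomputable section

namespace Fermat.Agent.Gateway.GoodRed.Forms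

open Fermat.Agent.S24 Fermat.Agent.S24.QExp Fermat.Agent.S24.Setup
open Fermat.Agent.S24.CuspOrd (cuspFnAlg IsCuspFn IsCuspMer)
open Fermat.Agent.S24.EmbedGen (FracP toMer qFrac)
open Fermat.Agent.Gateway.Dict

variable (M : ℕ) [NeZero M]

/-! ### The expansion map on `ℂ(X₀(M))` -/

theorem toMer_injective : Function.Injective (toMer (cuspFnAlg M)) :=
  (toMer (cuspFnAlg M)).injective

theorem smul_embC_mem_range (g : SL(2, ℤ)) (x : SetupC.FC M) :
    (MulSemiringAction.toRingHom SL(2, ℤ) MerFun g).comp (EmbedC.embC M) x ∈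
      (toMer (cuspFnAlg M)).range := by
  obtain ⟨a, b, ha, hb, -, hab⟩ := EmbedC.isCuspMer_smul_embC M x g
  refine ⟨algebraMap (cuspFnAlg M) (FracP (cuspFnAlg M)) ⟨a, ha⟩ /
    algebraMap (cuspFnAlg M) (FracP (cuspFnAlg M)) ⟨b, hb⟩, ?_⟩
  rw [EmbedGen.toMer_div]
  exact hab.symm

/-- The ring hom `x ↦ z`-expansion of `g • embC x`. -/
def tauC (g : SL(2, ℤ)) : SetupC.FC M →+* LaurentSeries ℂ :=
  (qFrac (zL M).toRingHom (zL_injective M)).comp
    (liftThrough (toMer (cuspFnAlg M)) (toMer_injective M)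
      ((MulSemiringAction.toRingHom SL(2, ℤ) MerFun g).comp (EmbedC.embC M))
      (smul_embC_mem_range M g))

/-- If `g • embC x` is the cusp function `a`, then `tauC g x` is the `z`-expansion of `a`. -/
theorem tauC_eq (g : SL(2, ℤ)) (x : SetupC.FC M) (a : cuspFnAlg M)
    (h : g • EmbedC.embC M x = algebraMap HolFun MerFun (a : HolFun)) :
    tauC M g x = zL M a := by
  have h1 : liftThrough (toMer (cuspFnAlg M)) (toMer_injective M)
      ((MulSemiringAction.toRingHom SL(2, ℤ) MerFun g).comp (EmbedC.embC M))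
      (smul_embC_mem_range M g) x = algebraMap (cuspFnAlg M) (FracP (cuspFnAlg M)) a := by
    apply liftThrough_eq
    rw [EmbedGen.toMer_algebraMap]
    exact h.symm
  rw [tauC, RingHom.comp_apply, h1, EmbedGen.qFrac_algebraMap]
  rfl

theorem tauC_const (g : SL(2, ℤ)) (c : ℂ) :
    tauC M g (algebraMap ℂ (SetupC.FC M) c) = HahnSeries.C c := by
  have h : g • EmbedC.embC M (algebraMap ℂ (SetupC.FC M) c) =
      algebraMap HolFun MerFun ((algebraMap ℂ (cuspFnAlg M) c : cuspFnAlg M) : HolFun) := by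
    rw [EmbedC.embC_const, Conj.sl_smul_const]
    rfl
  rw [tauC_eq M g _ _ h, AlgHom.commutes, ModularCurve.algebraMap_laurentSeries_eq_single,
    HahnSeries.C_apply]

theorem tauC_jF (g : SL(2, ℤ)) :
    tauC M g (SetupC.jF M) = qExpand ℂ M (coeffMap (algebraMap ℚ ℂ) jq) := by
  have h : g • EmbedC.embC M (SetupC.jF M) =
      algebraMap HolFun MerFun ((⟨jHol, CuspOrd.jHol_mem_cuspFnAlg M⟩ : cuspFnAlg M) : HolFun) := by
    rw [EmbedC.embC_jF, MerFun.sl_smul_algebraMap, sl_smul_jHol]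
  rw [tauC_eq M g _ _ h, zL_eq_qExpand M jHol jPer.2 (CuspOrd.jHol_mem_cuspFnAlg M)]
  congr 1
  exact qLaurent_jPer'

theorem tauC_gen (g : SL(2, ℤ)) :
    tauC M g (SetupC.gen M (dvd_refl M)) =
      zL M ⟨g • JLevel.jd M, JD.isCuspFn_smul_jd (dvd_refl M) g⟩ := by
  apply tauC_eq
  rw [EmbedC.embC_gen, MerFun.sl_smul_algebraMap]

/-! ### Base change of constants -/

/-- The algebra structure `Kbar → ℂ` given by `iota` (local instance only). -/
@[reducible] def algKbarC : Algebra Kbar ℂ := iota.toAlgebra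

attribute [local instance] algKbarC

theorem towerKbarC : IsScalarTower ℚ Kbar ℂ :=
  IsScalarTower.of_algebraMap_eq fun c => (congrFun (congrArg DFunLike.coe iota_comp_algebraMap) c).symm

attribute [local instance] towerKbarC

theorem coeffMap_iota_mem {x : LaurentSeries Kbar} (hx : x ∈ modularFunctionFieldBar M) :
    coeffMap iota x ∈ laurentBaseChange ℂ (modularFunctionFieldFull M) :=
  Fermat.Agent.Gateway.BaseChange.iota_mem_laurentBaseChange Kbar ℂ (modularFunctionFieldFull M) hx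

/-- Base change of constants `Kbar(X₀(M)) → ℂ(X₀(M))`. -/
def iotaF : FF M →+* SetupC.FC M :=
  (phi M).codRestrict (laurentBaseChange ℂ (modularFunctionFieldFull M))
    (fun x => coeffMap_iota_mem M x.2)

@[simp] theorem coe_iotaF (x : FF M) :
    ((iotaF M x : SetupC.FC M) : LaurentSeries ℂ) = coeffMap iota (x : LaurentSeries Kbar) := rfl

theorem iotaF_const (c : Kbar) :
    iotaF M (algebraMap Kbar (FF M) c) = algebraMap ℂ (SetupC.FC M) (iota c) :=
  Subtype.ext (phi_algebraMap M c)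

theorem iotaF_jF : iotaF M (jF M) = SetupC.jF M :=
  Subtype.ext (coeffMap_iota_jK 1)

theorem iotaF_gen {d : ℕ} [NeZero d] (hd : d ∣ M) : iotaF M (gen M hd) = SetupC.gen M hd :=
  Subtype.ext (coeffMap_iota_jK d)

/-- The analytic embeddings `F_M → ℂ((z))`. -/
def tau (g : SL(2, ℤ)) : FF M →+* LaurentSeries ℂ := (tauC M g).comp (iotaF M)

theorem tau_apply (g : SL(2, ℤ)) (x : FF M) : tau M g x = tauC M g (iotaF M x) := rfl

theorem tau_const (g : SL(2, ℤ)) (c : Kbar) :
    tau M g (algebraMap Kbar (FF M) c) = HahnSeries.C (iota c) := by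
  rw [tau_apply, iotaF_const, tauC_const]

theorem tau_jF (g : SL(2, ℤ)) :
    tau M g (jF M) = qExpand ℂ M (coeffMap (algebraMap ℚ ℂ) jq) := by
  rw [tau_apply, iotaF_jF, tauC_jF]

theorem tau_eq_iff (g g' : SL(2, ℤ)) (h : tau M g = tau M g') : g'⁻¹ * g ∈ Gamma0 M := by
  have h1 := DFunLike.congr_fun h (gen M (dvd_refl M))
  rw [tau_apply, tau_apply, iotaF_gen, tauC_gen, tauC_gen] at h1
  have h2 := zL_injective M h1
  have h3 : g • JLevel.jd M = g' • JLevel.jd M := congrArg (fun a : cuspFnAlg M => (a : HolFun)) h2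
  apply JLevel.mem_Gamma0_of_smul_jd_eq
  rw [mul_smul, h3, ← mul_smul, inv_mul_cancel, one_smul]

/-! ### Degree of `F_M` over `K(j)` -/

theorem finrank_FF :
    FiniteDimensional Kbar⟮jF M⟯ (FF M) ∧
      Module.finrank Kbar⟮jF M⟯ (FF M) = (Gamma0 M).index := by
  have hdeg := EmbedTheta.hdeg_of M
    (fun θ hfix hgr hper a hq => HDeg.exists_poly M θ hfix hgr hper a hq)
  have halg : ∀ g ∈ genSetF M, IsAlgebraic Kbar⟮jF M⟯ g := by
    intro g hg
    obtain ⟨p, hp0, -, hpa⟩ := hdeg g (Algebra.subset_adjoin hg)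
    exact ⟨p, hp0, hpa⟩
  have hgen := GenRing.exists_div M halg
  obtain ⟨D, -⟩ := Embed.exists_embData' M
  obtain ⟨hfd, hfr, -⟩ := Conj.finrank_and_norm D hgen hdeg
  exact ⟨hfd, hfr⟩

/-! ### Every embedding over `j` is analytic -/

/-- **Main theorem.** Every ring hom `σ : F_M → Kbar((z))` which is the identity on constants and
sends `j` to `j(z^M)` is, after extending coefficients to `ℂ`, the analytic embedding `tau g` for
some `g ∈ SL(2,ℤ)`. -/
theorem exists_tau_eq (σ : FF M →+* LaurentSeries Kbar)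
    (hσc : ∀ c : Kbar, σ (algebraMap Kbar (FF M) c) = HahnSeries.C c)
    (hσj : σ (jF M) = qExpand Kbar M (jK 1)) :
    ∃ g : SL(2, ℤ), (coeffMap iota).comp σ = tau M g := by
  classical
  obtain ⟨hfd, hfr⟩ := finrank_FF M
  -- the family of analytic embeddings indexed by cosets
  let τ : SL(2, ℤ) ⧸ Gamma0 M → (FF M →+* LaurentSeries ℂ) := fun b => tau M (Quotient.out b)
  have hτ : Function.Injective τ := by
    intro b b' h
    have h1 := tau_eq_iff M _ _ h
    have h2 : (QuotientGroup.mk (Quotient.out b') : SL(2, ℤ) ⧸ Gamma0 M) =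
        QuotientGroup.mk (Quotient.out b) := QuotientGroup.eq.mpr h1
    have e1 : (QuotientGroup.mk (Quotient.out b) : SL(2, ℤ) ⧸ Gamma0 M) = b := Quotient.out_eq' b
    have e2 : (QuotientGroup.mk (Quotient.out b') : SL(2, ℤ) ⧸ Gamma0 M) = b' :=
      Quotient.out_eq' b'
    rw [← e1, ← e2, h2]
  -- agreement on `K(j)`
  have hagree : ∀ (φ ψ : FF M →+* LaurentSeries ℂ)
      (_ : ∀ c : Kbar, φ (algebraMap Kbar (FF M) c) = ψ (algebraMap Kbar (FF M) c))
      (_ : φ (jF M) = ψ (jF M)) (e : Kbar⟮jF M⟯),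
      φ (algebraMap Kbar⟮jF M⟯ (FF M) e) = ψ (algebraMap Kbar⟮jF M⟯ (FF M) e) := by
    intro φ ψ hc hj e
    have h := Conj.ringHom_eq_of_adjoin (K := Kbar) {jF M}
      (φ.comp (algebraMap Kbar⟮jF M⟯ (FF M))) (ψ.comp (algebraMap Kbar⟮jF M⟯ (FF M)))
      (fun c => hc c)
      (fun x hx => by
        rw [Set.mem_singleton_iff] at hx
        subst hx
        exact hj)
    exact DFunLike.congr_fun h e
  have hcard : Module.finrank Kbar⟮jF M⟯ (FF M) ≤ Fintype.card (SL(2, ℤ) ⧸ Gamma0 M) := by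
    rw [hfr, Conj.card_quotient]
  have hσc' : ∀ c : Kbar, ((coeffMap iota).comp σ) (algebraMap Kbar (FF M) c) =
      HahnSeries.C (iota c) := by
    intro c
    rw [RingHom.comp_apply, hσc, HahnSeries.C_apply, coeffMap_single, HahnSeries.C_apply]
  have hσj' : ((coeffMap iota).comp σ) (jF M) = qExpand ℂ M (coeffMap (algebraMap ℚ ℂ) jq) := by
    rw [RingHom.comp_apply, hσj, ModularCurve.coeffMap_qExpand]
    congr 1
    have := coeffMap_iota_jK 1
    rw [this]
    congr 1
    exact qExpand_one_apply jq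
  obtain ⟨b, hb⟩ := exists_eq_of_card (E0 := Kbar⟮jF M⟯) τ hτ
    (fun i i' e => hagree _ _ (fun c => by rw [tau_const, tau_const])
      (by rw [tau_jF, tau_jF]) e)
    hcard ((coeffMap iota).comp σ) (QuotientGroup.mk 1)
    (fun e => hagree _ _ (fun c => by rw [hσc', tau_const]) (by rw [hσj', tau_jF]) e)
  exact ⟨Quotient.out b, hb⟩

end Fermat.Agent.Gateway.GoodRed.Forms
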