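import Mathlib
import Fermat.Agent.S23

/-!
# WP-GR8d (P-GATEWAY, GoodRed/Forms): a saturated integral basis of `S₂(Γ₀(N))`  (helper45)

The lattice of weight two cusp forms on `Γ₀(N)` with integral `q`-expansion is free of rank
`dim_ℂ S₂(Γ₀(N))`; a `ℤ`-basis of it is a `ℂ`-basis of the space of cusp forms (this uses S23), and
the reductions modulo every prime `p` of the `q`-expansions of the basis are linearly independent
over every field of characteristic `p` (saturation: if `p` divides the `q`-expansion of an integral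
form `g`, then `g / p` is again an integral form).
-/

set_option autoImplicit false
set_option linter.unusedSectionVars false

open UpperHalfPlane ModularFormClass
open scoped MatrixGroups

namespace Fermat.Agent.Gateway.GoodRed.Forms

local notation "Γ₀(" N ")" => CongruenceSubgroup.Gamma0 N

section LinearAlgebra

/-- Extension of scalars along a field extension preserves the linear independence of families of
vectors with coordinates in the small field. -/
theorem linearIndependent_algebraMap_comp {K E ι J : Type*} [Field K] [Field E] [Algebra K E]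
    {v : ι → J → K} (hv : LinearIndependent K v) :
    LinearIndependent E (fun i => fun j => algebraMap K E (v i j)) := by
  rw [linearIndependent_iff'] at hv ⊢
  intro s g hg i hi
  rw [← Module.forall_dual_apply_eq_zero_iff K (g i)]
  intro φ
  have h1 : ∑ l ∈ s, φ (g l) • v l = 0 := by
    funext j
    have h2 : ∑ l ∈ s, g l * algebraMap K E (v l j) = 0 := by
      have := congrFun hg j
      simpa [Finset.sum_apply] using this
    have h3 := congrArg φ h2
    rw [map_sum, map_zero] at h3
    rw [Finset.sum_apply, Pi.zero_apply, ← h3]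
    refine Finset.sum_congr rfl (fun l _ => ?_)
    have h4 : g l * algebraMap K E (v l j) = v l j • g l := by
      rw [Algebra.smul_def, mul_comm]
    rw [h4, map_smul, Pi.smul_apply, smul_eq_mul, smul_eq_mul, mul_comm]
  exact hv s _ h1 i hi

/-- Integer vectors which are linearly independent over `ℤ` are linearly independent over any
field of characteristic zero. -/
theorem linearIndependent_intCast_comp {E ι J : Type*} [Field E] [CharZero E]
    {v : ι → J → ℤ} (hv : LinearIndependent ℤ v) :
    LinearIndependent E (fun i => fun j => ((v i j : ℤ) : E)) := by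
  -- first over `ℚ`
  let c : (J → ℤ) →ₗ[ℤ] (J → ℚ) :=
    { toFun := fun w j => (w j : ℚ)
      map_add' := fun w w' => by funext j; simp
      map_smul' := fun a w => by funext j; simp }
  have hc : LinearMap.ker c = ⊥ := by
    rw [LinearMap.ker_eq_bot]
    intro w w' h
    funext j
    have h' : ((w j : ℤ) : ℚ) = ((w' j : ℤ) : ℚ) := congrFun h j
    exact_mod_cast h'
  have h1 : LinearIndependent ℤ (c ∘ v) := hv.map' c hc
  have h2 : LinearIndependent ℚ (c ∘ v) :=
    LinearIndependent.localization ℚ (nonZeroDivisors ℤ) h1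
  have h3 := linearIndependent_algebraMap_comp (K := ℚ) (E := E) h2
  convert h3 using 2
  rename_i i
  funext j
  simp [c]

end LinearAlgebra

section Lattice

open Fermat.Agent.S23

variable (N : ℕ)

/-- The lattice of cusp forms with integral `q`-expansion. -/
def intForms : Submodule ℤ (CuspForm Γ₀(N) 2) :=
  AddSubgroup.toIntSubmodule
    { carrier := {f | ∀ n : ℕ, ∃ m : ℤ, qCoeff ⇑f n = (m : ℂ)}
      add_mem' := by
        intro f g hf hg n
        obtain ⟨a, ha⟩ := hf n
        obtain ⟨b, hb⟩ := hg n
        exact ⟨a + b, by rw [qCoeff_add, ha, hb]; push_cast; rfl⟩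
      zero_mem' := by
        intro n
        refine ⟨0, ?_⟩
        have h0 : (0 : CuspForm Γ₀(N) 2) = (0 : ℂ) • (0 : CuspForm Γ₀(N) 2) := by simp
        rw [h0, qCoeff_smul]
        simp
      neg_mem' := by
        intro f hf n
        obtain ⟨a, ha⟩ := hf n
        refine ⟨-a, ?_⟩
        have h0 : -f = (-1 : ℂ) • f := by simp
        rw [h0, qCoeff_smul, ha]
        push_cast
        ring }

variable {N}

theorem mem_intForms {f : CuspForm Γ₀(N) 2} :
    f ∈ intForms N ↔ ∀ n : ℕ, ∃ m : ℤ, qCoeff ⇑f n = (m : ℂ) := Iff.rfl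

/-- The integral `q`-expansion coefficients of an integral form. -/
noncomputable def qZfun (f : intForms N) (n : ℕ) : ℤ := Classical.choose (f.2 n)

theorem qZfun_spec (f : intForms N) (n : ℕ) :
    qCoeff ⇑(f : CuspForm Γ₀(N) 2) n = ((qZfun f n : ℤ) : ℂ) :=
  Classical.choose_spec (f.2 n)

/-- The integral `q`-expansion, as a `ℤ`-linear map. -/
noncomputable def qZ : intForms N →ₗ[ℤ] (ℕ → ℤ) :=
  (AddMonoidHom.mk' (fun f => qZfun f) (by
    intro f g
    funext n
    have h : ((qZfun (f + g) n : ℤ) : ℂ) = ((qZfun f n + qZfun g n : ℤ) : ℂ) := by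
      rw [← qZfun_spec]
      push_cast
      rw [← qZfun_spec, ← qZfun_spec]
      exact qCoeff_add _ _ n
    exact_mod_cast h)).toIntLinearMap

theorem qZ_apply (f : intForms N) (n : ℕ) : qZ f n = qZfun f n := rfl

theorem qZ_spec (f : intForms N) (n : ℕ) :
    qCoeff ⇑(f : CuspForm Γ₀(N) 2) n = ((qZ f n : ℤ) : ℂ) := qZfun_spec f n

theorem qZ_eq_of_qCoeff {f : intForms N} {n : ℕ} {m : ℤ}
    (h : qCoeff ⇑(f : CuspForm Γ₀(N) 2) n = (m : ℂ)) : qZ f n = m := by
  have : ((qZ f n : ℤ) : ℂ) = (m : ℂ) := by rw [← qZ_spec, h]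
  exact_mod_cast this

variable [NeZero N]

theorem qZ_injective : Function.Injective (qZ (N := N)) := by
  intro f g h
  apply Subtype.ext
  apply qMap_injective N 2
  funext n
  rw [qMap_apply, qMap_apply, qZ_spec, qZ_spec, h]

/-- The truncated integral `q`-expansion up to the Sturm bound is injective. -/
theorem qZ_trunc_injective :
    Function.Injective (fun (f : intForms N)
      (i : Fin ((2 * (Γ₀(N)).index : ℤ).toNat / 12 + 1)) => qZ f i) := by
  intro f g h
  apply Subtype.ext
  apply qTrunc_injective N 2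
  funext i
  have := congrFun h i
  change qCoeff ⇑(f : CuspForm Γ₀(N) 2) i = qCoeff ⇑(g : CuspForm Γ₀(N) 2) i
  rw [qZ_spec, qZ_spec]
  exact_mod_cast congrArg (fun z : ℤ => (z : ℂ)) this

variable (N)

/-- The lattice of integral forms has a finite `ℤ`-basis. -/
theorem exists_basis_intForms : ∃ r : ℕ, Nonempty (Module.Basis (Fin r) ℤ (intForms N)) := by
  let t : intForms N →ₗ[ℤ] (Fin ((2 * (Γ₀(N)).index : ℤ).toNat / 12 + 1) → ℤ) :=
    { toFun := fun f i => qZ f i
      map_add' := fun f g => by funext i; simp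
      map_smul' := fun a f => by funext i; simp }
  have ht : Function.Injective t := qZ_trunc_injective
  obtain ⟨r, ⟨b⟩⟩ := Submodule.nonempty_basis_of_pid
    (Pi.basisFun ℤ (Fin ((2 * (Γ₀(N)).index : ℤ).toNat / 12 + 1))) (LinearMap.range t)
  exact ⟨r, ⟨b.map (LinearEquiv.ofInjective t ht).symm⟩⟩

end Lattice

section Main

open Fermat.Agent.S23

variable {N : ℕ} [NeZero N] {r : ℕ} (b : Module.Basis (Fin r) ℤ (intForms N))

theorem linearIndependent_qZ : LinearIndependent ℤ (fun i => qZ (b i)) :=
  b.linearIndependent.map' qZ (LinearMap.ker_eq_bot.2 qZ_injective)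

/-- A `ℤ`-basis of the lattice of integral forms is linearly independent over `ℂ`. -/
theorem linearIndependent_coe_basis :
    LinearIndependent ℂ (fun i => (b i : CuspForm Γ₀(N) 2)) := by
  apply LinearIndependent.of_comp (qMap N 2)
  have h := linearIndependent_intCast_comp (E := ℂ) (linearIndependent_qZ b)
  have h' : (⇑(qMap N 2) ∘ fun i => (b i : CuspForm Γ₀(N) 2)) =
      fun i => fun n => ((qZ (b i) n : ℤ) : ℂ) := by
    funext i n
    simp only [Function.comp_apply, qMap_apply, qZ_spec]
  rw [h']
  exact h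

/-- A `ℤ`-basis of the lattice of integral forms spans the space of cusp forms (S23). -/
theorem span_coe_basis :
    Submodule.span ℂ (Set.range fun i => (b i : CuspForm Γ₀(N) 2)) = ⊤ := by
  have hS := Fermat.Agent.S23.result N
  unfold CuspForm.HasIntegralStructure at hS
  rw [eq_top_iff, ← hS]
  apply Submodule.span_le.2
  intro g hg
  have hg' : g ∈ intForms N := by
    have hle : CuspForm.intLattice N 2 ≤ intForms N := Submodule.span_le.2 (fun f hf => hf)
    exact hle hg
  have hsum : (⟨g, hg'⟩ : intForms N) = ∑ i, b.repr ⟨g, hg'⟩ i • b i := (b.sum_repr _).symm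
  have hsum' : g = ∑ i, b.repr ⟨g, hg'⟩ i • (b i : CuspForm Γ₀(N) 2) := by
    calc g = ((⟨g, hg'⟩ : intForms N) : CuspForm Γ₀(N) 2) := rfl
      _ = ((∑ i, b.repr ⟨g, hg'⟩ i • b i : intForms N) : CuspForm Γ₀(N) 2) := by rw [← hsum]
      _ = ∑ i, b.repr ⟨g, hg'⟩ i • (b i : CuspForm Γ₀(N) 2) := by
        rw [Submodule.coe_sum]
        rfl
  rw [hsum']
  refine Submodule.sum_mem _ (fun i _ => ?_)
  exact zsmul_mem (Submodule.subset_span (Set.mem_range_self i)) _

/-- Saturation: an integral combination of the basis whose `q`-expansion is divisible by `p` has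
all its coefficients divisible by `p`. -/
theorem dvd_of_forall_dvd (p : ℕ) (hp : p ≠ 0) (a : Fin r → ℤ)
    (h : ∀ n, (p : ℤ) ∣ ∑ i, a i * qZ (b i) n) : ∀ i, (p : ℤ) ∣ a i := by
  set g : intForms N := ∑ i, a i • b i with hg
  have hgq : ∀ n, qZ g n = ∑ i, a i * qZ (b i) n := by
    intro n
    simp [hg, map_sum, Finset.sum_apply]
  choose c hc using h
  have hpC : (p : ℂ) ≠ 0 := by exact_mod_cast hp
  set hV : CuspForm Γ₀(N) 2 := ((p : ℂ)⁻¹) • (g : CuspForm Γ₀(N) 2) with hhV
  have hVmem : hV ∈ intForms N := by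
    intro n
    refine ⟨c n, ?_⟩
    rw [hhV, qCoeff_smul, qZ_spec, hgq, hc n]
    push_cast
    field_simp
  have hpg : (p : ℤ) • (⟨hV, hVmem⟩ : intForms N) = g := by
    apply Subtype.ext
    change (p : ℤ) • hV = (g : CuspForm Γ₀(N) 2)
    rw [hhV, ← Int.cast_smul_eq_zsmul ℂ, smul_smul]
    push_cast
    rw [mul_inv_cancel₀ hpC, one_smul]
  intro i
  have h1 : b.repr g i = a i := by
    rw [hg]
    exact congrFun (b.repr_sum_self a) i
  have h2 : b.repr g i = (p : ℤ) * b.repr ⟨hV, hVmem⟩ i := by
    rw [← hpg, map_smul]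
    simp
  exact ⟨_, h1.symm.trans h2⟩

theorem linearIndependent_zmod (p : ℕ) [Fact p.Prime] :
    LinearIndependent (ZMod p) (fun i => fun n => ((qZ (b i) n : ℤ) : ZMod p)) := by
  rw [Fintype.linearIndependent_iff]
  intro g hg i
  choose a ha using fun i => ZMod.intCast_surjective (g i)
  have hdiv : ∀ n, (p : ℤ) ∣ ∑ i, a i * qZ (b i) n := by
    intro n
    rw [← ZMod.intCast_zmod_eq_zero_iff_dvd]
    have := congrFun hg n
    simp only [Finset.sum_apply, Pi.smul_apply, smul_eq_mul, Pi.zero_apply] at this
    push_cast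
    simp_rw [ha]
    exact this
  have := dvd_of_forall_dvd b p (Fact.out : p.Prime).ne_zero a hdiv i
  rw [← ha i, ZMod.intCast_zmod_eq_zero_iff_dvd]
  exact this

theorem linearIndependent_charP (k : Type*) [Field k] (p : ℕ) [CharP k p] (hp : p.Prime) :
    LinearIndependent k (fun i => fun n => ((qZ (b i) n : ℤ) : k)) := by
  have : Fact p.Prime := ⟨hp⟩
  let _ := ZMod.algebra k p
  have h := linearIndependent_algebraMap_comp (K := ZMod p) (E := k) (linearIndependent_zmod b p)
  convert h using 2
  rename_i i
  funext n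
  simp

/-- The rank of the lattice of integral forms is the dimension of the space of cusp forms. -/
theorem finrank_eq_rank {N : ℕ} [NeZero N] {r : ℕ} (b : Module.Basis (Fin r) ℤ (intForms N)) :
    Module.finrank ℂ (CuspForm Γ₀(N) 2) = r := by
  have hb : Module.Basis (Fin r) ℂ (CuspForm Γ₀(N) 2) :=
    Module.Basis.mk (linearIndependent_coe_basis b) (span_coe_basis b).ge
  rw [Module.finrank_eq_card_basis hb, Fintype.card_fin]

end Main

section Final

open Fermat.Agent.S23

/-- The coefficient sequence of a power series, as a linear map. -/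
noncomputable def coeffSeq (k : Type*) [Field k] : PowerSeries k →ₗ[k] (ℕ → k) :=
  LinearMap.pi (fun n => PowerSeries.coeff n)

theorem coeffSeq_apply (k : Type*) [Field k] (w : PowerSeries k) (n : ℕ) :
    coeffSeq k w n = PowerSeries.coeff n w := rfl

/-- **WP-GR8d**: a basis of `S₂(Γ₀(N))` consisting of forms with integral `q`-expansion, whose
`q`-expansions stay linearly independent modulo every prime. -/
theorem exists_saturated_basis (N : ℕ) [NeZero N] :
    ∃ (f : Fin (Module.finrank ℂ (CuspForm (CongruenceSubgroup.Gamma0 N) 2)) →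
        CuspForm (CongruenceSubgroup.Gamma0 N) 2)
      (qf : Fin (Module.finrank ℂ (CuspForm (CongruenceSubgroup.Gamma0 N) 2)) → PowerSeries ℤ),
      (∀ i, UpperHalfPlane.qExpansion 1 (f i) = (qf i).map (Int.castRingHom ℂ)) ∧
      (∀ i, PowerSeries.constantCoeff (qf i) = 0) ∧
      LinearIndependent ℂ f ∧ Submodule.span ℂ (Set.range f) = ⊤ ∧
      ∀ (k : Type) [Field k] (p : ℕ) [CharP k p], p.Prime →
        LinearIndependent k (fun i => (qf i).map (Int.castRingHom k)) := by
  obtain ⟨r, ⟨b⟩⟩ := exists_basis_intForms N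
  have hr : Module.finrank ℂ (CuspForm Γ₀(N) 2) = r := finrank_eq_rank b
  let e : Fin (Module.finrank ℂ (CuspForm Γ₀(N) 2)) ≃ Fin r := finCongr hr
  refine ⟨fun i => (b (e i) : CuspForm Γ₀(N) 2), fun i => PowerSeries.mk (qZ (b (e i))),
    ?_, ?_, ?_, ?_, ?_⟩
  · intro i
    ext n
    rw [PowerSeries.coeff_map, PowerSeries.coeff_mk]
    exact qZ_spec (b (e i)) n
  · intro i
    rw [← PowerSeries.coeff_zero_eq_constantCoeff_apply, PowerSeries.coeff_mk]
    apply qZ_eq_of_qCoeff
    have h0 : qCoeff ⇑(b (e i) : CuspForm Γ₀(N) 2) 0 = 0 :=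
      CuspFormClass.qExpansion_coeff_zero _ one_pos (one_mem_strictPeriods N)
    rw [h0]
    simp
  · exact (linearIndependent_coe_basis b).comp e e.injective
  · have hrange : (Set.range fun i => (b (e i) : CuspForm Γ₀(N) 2)) =
        Set.range fun j => (b j : CuspForm Γ₀(N) 2) :=
      e.surjective.range_comp (fun j => (b j : CuspForm Γ₀(N) 2))
    rw [hrange]
    exact span_coe_basis b
  · intro k _ p _ hp
    apply LinearIndependent.of_comp (coeffSeq k)
    have h := (linearIndependent_charP b k p hp).comp e e.injective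
    have h' : (⇑(coeffSeq k) ∘ fun i => (PowerSeries.mk (qZ (b (e i)))).map (Int.castRingHom k)) =
        (fun i => fun n => ((qZ (b i) n : ℤ) : k)) ∘ e := by
      funext i n
      simp only [Function.comp_apply, coeffSeq_apply, PowerSeries.coeff_map, PowerSeries.coeff_mk]
      rfl
    rw [h']
    exact h

end Final

end Fermat.Agent.Gateway.GoodRed.Forms
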