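import Mathlib
import Fermat.Agent.Gateway.Dict.EmbedC
import Fermat.Agent.Gateway.Dict.DegreeC
import Fermat.Agent.Gateway.Dict.HolOfOrd
import Fermat.Agent.Gateway.Dict.CuspBound

/-!
helper46 (P-GATEWAY part (c), WP-GR8h "Avatar").  The analytic avatar of an *integral* element
of the function field of `X₀(N)` over `ℂ`: if `x : FC N` is integral over `ℂ[j]` then
`embC N x` is (the image of) a holomorphic, `1`-periodic function of moderate growth `θ`, and the
`q`-expansion of `θ` is the Laurent series `x`.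

* `embC_mem_range_of_mem_adjoin` : `embC N` maps `ℂ[j]` into `HolFun`.
* `isIntegral_embC` : `embC N x` is integral over `HolFun`.
* `isPer_of_smul_eq` : a holomorphic function fixed by `T` is `1`-periodic.
* `exists_avatar` : the main statement.
-/

set_option autoImplicit false

open ModularCurve
open UpperHalfPlane hiding I
open scoped MatrixGroups

namespace Fermat.Agent.Gateway.GoodRed.Forms

open Fermat.Agent.S24
open Fermat.Agent.Gateway.Dict
open Fermat.Agent.Gateway.Dict.SetupC Fermat.Agent.Gateway.Dict.EmbedC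

/-- `embC N` maps the polynomial ring `ℂ[j]` into the holomorphic functions. -/
theorem embC_mem_range_of_mem_adjoin (N : ℕ) [NeZero N] {a : FC N}
    (ha : a ∈ Algebra.adjoin ℂ {jF N}) :
    embC N a ∈ (algebraMap HolFun MerFun).range := by
  rw [Algebra.adjoin_singleton_eq_range_aeval] at ha
  obtain ⟨q, rfl⟩ := ha
  exact ⟨Polynomial.aeval jHol q, (DegreeC.emb_aeval (embData N) q).symm⟩

/-- The image under `embC N` of an element integral over `ℂ[j]` is integral over `HolFun`. -/
theorem isIntegral_embC (N : ℕ) [NeZero N] (x : FC N)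
    (hint : IsIntegral (Algebra.adjoin ℂ {jF N}) x) : IsIntegral HolFun (embC N x) := by
  classical
  set f : HolFun →+* MerFun := algebraMap HolFun MerFun with hf
  have hinj : Function.Injective f := IsFractionRing.injective HolFun MerFun
  -- the restriction of `embC` to `ℂ[j]`, with values in `HolFun`
  have hmem : ∀ a : Algebra.adjoin ℂ {jF N}, ∃ g : HolFun, f g = embC N (a : FC N) :=
    fun a => embC_mem_range_of_mem_adjoin N a.2
  choose φ hφ using hmem
  let Φ : Algebra.adjoin ℂ {jF N} →+* HolFun :=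
    { toFun := φ
      map_one' := hinj (by rw [hφ, map_one]; simp)
      map_mul' := fun a b => hinj (by rw [hφ, map_mul, hφ, hφ]; simp)
      map_zero' := hinj (by rw [hφ, map_zero]; simp)
      map_add' := fun a b => hinj (by rw [hφ, map_add, hφ, hφ]; simp) }
  refine IsIntegral.map_of_comp_eq Φ (embC N) ?_ hint
  ext a
  exact hφ a

/-- A holomorphic function fixed by `T⁻¹` is `1`-periodic. -/
theorem isPer_of_smul_eq {θ : HolFun} (h : (ModularGroup.T⁻¹ : SL(2, ℤ)) • θ = θ) :
    QExp.IsPer 1 (θ : ℍ → ℂ) := by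
  intro z
  have h1 := congrArg (fun g : HolFun => (g : ℍ → ℂ) z) h
  simp only [HolFun.sl_smul_apply, inv_inv] at h1
  rw [UpperHalfPlane.modular_T_smul] at h1
  exact h1

theorem T_inv_mem_Gamma0 (N : ℕ) : (ModularGroup.T⁻¹ : SL(2, ℤ)) ∈ CongruenceSubgroup.Gamma0 N := by
  apply inv_mem
  rw [CongruenceSubgroup.Gamma0_mem]
  simp [ModularGroup.T]

/-- **The analytic avatar of an integral element.** -/
theorem exists_avatar (N : ℕ) [NeZero N] (x : FC N)
    (hint : IsIntegral (Algebra.adjoin ℂ {jF N}) x) :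
    ∃ (θ : HolFun) (hθ : θ ∈ QExp.PerFun), embC N x = algebraMap HolFun MerFun θ ∧
      QExp.qLaurent ⟨θ, hθ⟩ = (x : LaurentSeries ℂ) := by
  obtain ⟨θ, hθx⟩ := HolOfOrd.exists_holFun_of_isIntegral _ (isIntegral_embC N x hint)
  have hinj : Function.Injective (algebraMap HolFun MerFun) :=
    IsFractionRing.injective HolFun MerFun
  -- periodicity
  have hper : QExp.IsPer 1 (θ : ℍ → ℂ) := by
    apply isPer_of_smul_eq
    apply hinj
    rw [← MerFun.sl_smul_algebraMap, hθx]
    exact embC_fixed N (T_inv_mem_Gamma0 N) x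
  -- moderate growth
  obtain ⟨a, b, hb0, hx, _⟩ := embC_frac N x
  have hb0' : algebraMap HolFun MerFun (b : HolFun) ≠ 0 := fun h0 =>
    hb0 (Subtype.ext (hinj (by rw [h0, ZeroMemClass.coe_zero, map_zero])))
  have h1 : θ * (b : HolFun) = (a : HolFun) := by
    apply hinj
    rw [map_mul, hθx, hx, div_mul_cancel₀ _ hb0']
  have hgrowth : QExp.ModGrowth (θ : ℍ → ℂ) := by
    have hcusp : ∀ c : QExp.PerFun, CuspOrd.IsCuspFn 1 ((c : HolFun) : ℍ → ℂ) := fun c =>
      ⟨(c : HolFun).2, by intro z; rw [Nat.cast_one]; exact c.2.1 z, c.2.2⟩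
    refine CuspBound.modGrowth_of_mul_eq (N := 1) one_pos θ.2 (hcusp a) (hcusp b) ?_ ?_
    · intro h0
      apply hb0
      apply Subtype.ext
      apply HolFun.ext
      intro z
      exact congrFun h0 z
    · intro z
      have := congrArg (fun g : HolFun => (g : ℍ → ℂ) z) h1
      simpa [HolFun.coe_mul_apply] using this
  exact ⟨θ, ⟨hper, hgrowth⟩, hθx.symm, qLaurent_eq_of_embC_eq N x ⟨hper, hgrowth⟩ hθx.symm⟩

end Fermat.Agent.Gateway.GoodRed.Forms
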