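import Mathlib
import Fermat.Agent.Gateway.GoodRed.Forms.Avatar
import Fermat.Agent.Gateway.GoodRed.Forms.Embeddings

/-!
helper46 (P-GATEWAY part (c), WP-GR8h "Avatar", second half).  The `Kbar`-version of
`exists_avatar`, with level raising: an element `tq` of the function field `Kbar(X₀(r))` which is
integral over `Kbar[j]` has a holomorphic, `1`-periodic avatar `θ` of moderate growth whose
`q`-expansion is `coeffMap iota tq`; moreover `tq` lies in every `Kbar(X₀(M))`, `r ∣ M`.

* `isIntegral_bar_of_rel` (and `isIntegral_bar_of_rel_int`) : integrality over `Kbar[j]` from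
  a relation `P(tq) = j * Q(tq)` with `P` monic and `deg Q < deg P`.
* `isIntegral_iotaF` : base change of integrality along `iotaF r : FF r →+* FC r`.
* `exists_avatar_bar` : the avatar of an integral element of `FF r`.
* `bar_mono_of_dvd` : `modularFunctionFieldBar r ≤ modularFunctionFieldBar M` for `r ∣ M`.
* `exists_forms_fields` : all the data needed for `FormsData M` (except `θ_dne`).
-/

set_option autoImplicit false

open ModularCurve
open UpperHalfPlane hiding I
open scoped MatrixGroups

namespace Fermat.Agent.Gateway.GoodRed.Forms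

open Fermat.Agent.S24 Fermat.Agent.S24.QExp
open Fermat.Agent.Gateway.Dict

section Level

variable (r : ℕ) [NeZero r]

/-! ### Integrality from an explicit relation -/

omit [NeZero r] in
/-- If `P(tq) = j * Q(tq)` with `P` monic and `deg Q < deg P` then `tq` is integral over
`Kbar[j]`. -/
theorem isIntegral_bar_of_rel (tq : LaurentSeries Setup.Kbar)
    (hmem : tq ∈ modularFunctionFieldBar r) (P Q : Polynomial Setup.Kbar) (hP : P.Monic)
    (hdeg : Q.degree < P.degree)
    (h : Polynomial.aeval tq P = Setup.jK 1 * Polynomial.aeval tq Q) :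
    IsIntegral (Algebra.adjoin Setup.Kbar {Setup.jF r}) (⟨tq, hmem⟩ : Setup.FF r) := by
  set A := Algebra.adjoin Setup.Kbar {Setup.jF r} with hA
  set jA : A := ⟨Setup.jF r, Algebra.subset_adjoin (Set.mem_singleton _)⟩ with hjA
  set x : Setup.FF r := ⟨tq, hmem⟩ with hx
  set p : Polynomial A :=
    P.map (algebraMap Setup.Kbar A) - Polynomial.C jA * Q.map (algebraMap Setup.Kbar A) with hp
  have hPm : (P.map (algebraMap Setup.Kbar A)).Monic := hP.map _
  have hdeg' : (Polynomial.C jA * Q.map (algebraMap Setup.Kbar A)).degree <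
      (P.map (algebraMap Setup.Kbar A)).degree := by
    calc (Polynomial.C jA * Q.map (algebraMap Setup.Kbar A)).degree
        ≤ (Polynomial.C jA).degree + (Q.map (algebraMap Setup.Kbar A)).degree :=
          Polynomial.degree_mul_le _ _
      _ ≤ 0 + Q.degree := add_le_add Polynomial.degree_C_le Polynomial.degree_map_le
      _ = Q.degree := zero_add _
      _ < P.degree := hdeg
      _ = (P.map (algebraMap Setup.Kbar A)).degree := (hP.degree_map _).symm
  refine ⟨p, hPm.sub_of_left hdeg', ?_⟩
  show Polynomial.eval₂ (algebraMap A (Setup.FF r)) x p = 0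
  have e1 : ∀ R : Polynomial Setup.Kbar,
      Polynomial.eval₂ (algebraMap A (Setup.FF r)) x (R.map (algebraMap Setup.Kbar A)) =
        Polynomial.aeval x R := by
    intro R
    rw [Polynomial.eval₂_map, ← IsScalarTower.algebraMap_eq, Polynomial.aeval_def]
  rw [hp, Polynomial.eval₂_sub, Polynomial.eval₂_mul, Polynomial.eval₂_C, e1, e1]
  have hval : ∀ R : Polynomial Setup.Kbar,
      ((Polynomial.aeval x R : Setup.FF r) : LaurentSeries Setup.Kbar) = Polynomial.aeval tq R := by
    intro R
    have := Polynomial.aeval_algHom_apply (modularFunctionFieldBar r).val x R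
    exact this.symm
  apply Subtype.ext
  rw [ZeroMemClass.coe_zero]
  show ((Polynomial.aeval x P : Setup.FF r) : LaurentSeries Setup.Kbar) -
      ((Setup.jF r : Setup.FF r) : LaurentSeries Setup.Kbar) *
        ((Polynomial.aeval x Q : Setup.FF r) : LaurentSeries Setup.Kbar) = 0
  rw [hval, hval, Setup.coe_jF, h, sub_self]

omit [NeZero r] in
/-- Integer-coefficient version of `isIntegral_bar_of_rel`. -/
theorem isIntegral_bar_of_rel_int (tq : LaurentSeries Setup.Kbar)
    (hmem : tq ∈ modularFunctionFieldBar r) (P Q : Polynomial ℤ) (hP : P.Monic)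
    (hdeg : Q.degree < P.degree)
    (h : Polynomial.aeval tq P = Setup.jK 1 * Polynomial.aeval tq Q) :
    IsIntegral (Algebra.adjoin Setup.Kbar {Setup.jF r}) (⟨tq, hmem⟩ : Setup.FF r) := by
  refine isIntegral_bar_of_rel r tq hmem (P.map (algebraMap ℤ Setup.Kbar))
    (Q.map (algebraMap ℤ Setup.Kbar)) (hP.map _) ?_ ?_
  · calc (Q.map (algebraMap ℤ Setup.Kbar)).degree ≤ Q.degree := Polynomial.degree_map_le
      _ < P.degree := hdeg
      _ = (P.map (algebraMap ℤ Setup.Kbar)).degree := (hP.degree_map _).symm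
  · have e : ∀ R : Polynomial ℤ,
        Polynomial.aeval tq (R.map (algebraMap ℤ Setup.Kbar)) = Polynomial.aeval tq R := by
      intro R
      rw [Polynomial.aeval_def, Polynomial.eval₂_map, Polynomial.aeval_def]
      congr 1
      exact RingHom.ext_int _ _
    rw [e, e, h]

/-! ### Base change of integrality -/

theorem iotaF_mem_adjoin {a : Setup.FF r} (ha : a ∈ Algebra.adjoin Setup.Kbar {Setup.jF r}) :
    iotaF r a ∈ Algebra.adjoin ℂ {SetupC.jF r} := by
  induction ha using Algebra.adjoin_induction with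
  | mem x hx =>
    rw [Set.mem_singleton_iff] at hx
    rw [hx, iotaF_jF]
    exact Algebra.subset_adjoin (Set.mem_singleton _)
  | algebraMap c =>
    rw [iotaF_const]
    exact Subalgebra.algebraMap_mem _ _
  | add x y _ _ hx hy =>
    rw [map_add]
    exact add_mem hx hy
  | mul x y _ _ hx hy =>
    rw [map_mul]
    exact mul_mem hx hy

/-- Integrality over `Kbar[j]` implies integrality over `ℂ[j]` after base change. -/
theorem isIntegral_iotaF (x : Setup.FF r)
    (hint : IsIntegral (Algebra.adjoin Setup.Kbar {Setup.jF r}) x) :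
    IsIntegral (Algebra.adjoin ℂ {SetupC.jF r}) (iotaF r x) := by
  let Φ : Algebra.adjoin Setup.Kbar {Setup.jF r} →+* Algebra.adjoin ℂ {SetupC.jF r} :=
    ((iotaF r).comp (algebraMap (Algebra.adjoin Setup.Kbar {Setup.jF r}) (Setup.FF r))).codRestrict
      (Algebra.adjoin ℂ {SetupC.jF r}) (fun a => iotaF_mem_adjoin r a.2)
  refine IsIntegral.map_of_comp_eq Φ (iotaF r) ?_ hint
  ext a
  rfl

/-- **The analytic avatar of an integral element of `Kbar(X₀(r))`.** -/
theorem exists_avatar_bar (x : Setup.FF r)
    (hint : IsIntegral (Algebra.adjoin Setup.Kbar {Setup.jF r}) x) :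
    ∃ (θ : HolFun) (hθ : θ ∈ PerFun),
      EmbedC.embC r (iotaF r x) = algebraMap HolFun MerFun θ ∧
      qLaurent ⟨θ, hθ⟩ = coeffMap Setup.iota (x : LaurentSeries Setup.Kbar) := by
  obtain ⟨θ, hθ, h1, h2⟩ := exists_avatar r (iotaF r x) (isIntegral_iotaF r x hint)
  exact ⟨θ, hθ, h1, by rw [h2, coe_iotaF]⟩

end Level

/-! ### Level raising -/

theorem bar_mono_of_dvd {r M : ℕ} [NeZero r] [NeZero M] (hrM : r ∣ M) :
    modularFunctionFieldBar r ≤ modularFunctionFieldBar M := by
  show laurentBaseChange Setup.Kbar (modularFunctionFieldFull r) ≤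
    laurentBaseChange Setup.Kbar (modularFunctionFieldFull M)
  rw [laurentBaseChange, IntermediateField.adjoin_le_iff]
  rintro _ ⟨y, hy, rfl⟩
  exact coeffEmb_mem_laurentBaseChange Setup.Kbar (full_degeneracy_le hrM hy)

/-- **All fields of `FormsData M` except `θ_dne`**, from an element of level `r ∣ M` integral
over `Kbar[j]`, together with the link to the analytic embedding at level `r`. -/
theorem exists_forms_fields {r M : ℕ} [NeZero r] [NeZero M] (hrM : r ∣ M)
    (tq : LaurentSeries Setup.Kbar) (hmem : tq ∈ modularFunctionFieldBar r)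
    (hint : IsIntegral (Algebra.adjoin Setup.Kbar {Setup.jF r}) (⟨tq, hmem⟩ : Setup.FF r)) :
    tq ∈ modularFunctionFieldBar M ∧
    ∃ (θ : HolFun) (hθ : θ ∈ PerFun), qLaurent ⟨θ, hθ⟩ = coeffMap Setup.iota tq ∧
      ∃ t : SetupC.FC r, (t : LaurentSeries ℂ) = coeffMap Setup.iota tq ∧
        EmbedC.embC r t = algebraMap HolFun MerFun θ := by
  refine ⟨bar_mono_of_dvd hrM hmem, ?_⟩
  obtain ⟨θ, hθ, h1, h2⟩ := exists_avatar_bar r ⟨tq, hmem⟩ hint
  exact ⟨θ, hθ, h2, iotaF r ⟨tq, hmem⟩, rfl, h1⟩

end Fermat.Agent.Gateway.GoodRed.Forms
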