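import Mathlib
import Fermat.Agent.Gateway.GoodRed.Forms.Embeddings

/-!
helper46 (P-GATEWAY part (c), WP-GR8).  Base change of "the function field is generated by one
element": if `Kbar(X₀(r)) = Kbar(tq)` then `ℂ(X₀(r)) = ℂ(t)` for `t = iotaF r tq`.  This is the
hypothesis `hgen` of `NonVanish.D_ne_zero_of_hauptmodul`.

* `coeffMap_iota_aeval` : `coeffMap iota` commutes with polynomial evaluation.
* `coeffMap_iota_mem_adjoin` : `coeffMap iota` maps `Kbar⟮tq⟯` into `ℂ⟮coeffMap iota tq⟯`.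
* `baseChange_le_adjoin` : `ℂ(X₀(r)) ≤ ℂ⟮coeffMap iota tq⟯` inside `ℂ((q))`.
* `adjoin_iotaF_eq_top` : `ℂ⟮iotaF r ⟨tq, _⟩⟯ = ⊤` in `FC r`.
-/

set_option autoImplicit false

open ModularCurve IntermediateField

namespace Fermat.Agent.Gateway.GoodRed.Forms

open Fermat.Agent.S24 Fermat.Agent.S24.Setup
open Fermat.Agent.Gateway.Dict

theorem coeffMap_iota_algebraMap (c : Kbar) :
    coeffMap iota (algebraMap Kbar (LaurentSeries Kbar) c) =
      algebraMap ℂ (LaurentSeries ℂ) (iota c) := by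
  rw [algebraMap_laurentSeries_eq_single, algebraMap_laurentSeries_eq_single, coeffMap_single]

/-- `coeffMap iota` commutes with polynomial evaluation. -/
theorem coeffMap_iota_aeval (tq : LaurentSeries Kbar) (p : Polynomial Kbar) :
    coeffMap iota (Polynomial.aeval tq p) =
      Polynomial.aeval (coeffMap iota tq) (p.map iota) := by
  rw [Polynomial.aeval_def, Polynomial.hom_eval₂, Polynomial.aeval_def, Polynomial.eval₂_map]
  congr 1
  exact RingHom.ext fun c => coeffMap_iota_algebraMap c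

/-- `coeffMap iota` maps `Kbar⟮tq⟯` into `ℂ⟮coeffMap iota tq⟯`. -/
theorem coeffMap_iota_mem_adjoin {tq y : LaurentSeries Kbar} (hy : y ∈ Kbar⟮tq⟯) :
    coeffMap iota y ∈ ℂ⟮coeffMap iota tq⟯ := by
  rw [IntermediateField.mem_adjoin_simple_iff] at hy
  obtain ⟨p, q, rfl⟩ := hy
  rw [map_div₀, coeffMap_iota_aeval, coeffMap_iota_aeval]
  have h : ∀ p : Polynomial ℂ,
      Polynomial.aeval (coeffMap iota tq) p ∈ ℂ⟮coeffMap iota tq⟯ := fun p => by
    rw [IntermediateField.mem_adjoin_simple_iff]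
    exact ⟨p, 1, by rw [map_one, div_one]⟩
  exact div_mem (h _) (h _)

/-- If `Kbar(X₀(r)) = Kbar(tq)` then `ℂ(X₀(r)) ≤ ℂ(coeffMap iota tq)`. -/
theorem baseChange_le_adjoin (r : ℕ) (tq : LaurentSeries Kbar)
    (hgen : modularFunctionFieldBar r = Kbar⟮tq⟯) :
    laurentBaseChange ℂ (modularFunctionFieldFull r) ≤ ℂ⟮coeffMap iota tq⟯ := by
  rw [laurentBaseChange, IntermediateField.adjoin_le_iff]
  rintro _ ⟨x, hx, rfl⟩
  have h1 : coeffEmb Kbar x ∈ modularFunctionFieldBar r :=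
    coeffEmb_mem_laurentBaseChange Kbar hx
  rw [hgen] at h1
  have h2 := coeffMap_iota_mem_adjoin h1
  have h3 : coeffMap iota (coeffEmb Kbar x) = coeffEmb ℂ x := by
    rw [coeffEmb, coeffEmb, coeffMap_coeffMap, iota_comp_algebraMap]
  rwa [h3] at h2

/-- **Base change of the Hauptmodul property.**  If `Kbar(X₀(r)) = Kbar(tq)` then the base change
`t = iotaF r tq` generates `ℂ(X₀(r))` over `ℂ`. -/
theorem adjoin_iotaF_eq_top (r : ℕ) [NeZero r] (tq : LaurentSeries Kbar)
    (hmem : tq ∈ modularFunctionFieldBar r)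
    (hgen : modularFunctionFieldBar r = Kbar⟮tq⟯) :
    IntermediateField.adjoin ℂ {iotaF r ⟨tq, hmem⟩} = ⊤ := by
  rw [eq_top_iff]
  intro y _
  set t : SetupC.FC r := iotaF r ⟨tq, hmem⟩ with ht
  have hy : ((y : SetupC.FC r) : LaurentSeries ℂ) ∈ ℂ⟮coeffMap iota tq⟯ :=
    baseChange_le_adjoin r tq hgen y.2
  -- transport along the inclusion `FC r → ℂ((q))`
  have hmap : (ℂ⟮t⟯).map (laurentBaseChange ℂ (modularFunctionFieldFull r)).val =
      ℂ⟮coeffMap iota tq⟯ := by
    rw [IntermediateField.adjoin_map, Set.image_singleton]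
    rfl
  rw [← hmap] at hy
  obtain ⟨y', hy', hyy'⟩ := hy
  have : y' = y := Subtype.ext hyy'
  rwa [this] at hy'

end Fermat.Agent.Gateway.GoodRed.Forms
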