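import Mathlib
import Fermat.Agent.S24.Stabilizer

/-!
# WP-GR8g': `Γ₀(4)` and `Γ₀(9)` have no elliptic points

If `γ ∈ SL(2,ℤ)` fixes a point of `ℍ` then `γ = ±1` or `|tr γ| ≤ 1`.  For `γ ∈ Γ₀(n)` one has
`a d ≡ 1 mod n`, which for `n = 4, 9` is incompatible with `a + d ∈ {-1, 0, 1}`.
-/

set_option autoImplicit false

open UpperHalfPlane CongruenceSubgroup
open scoped MatrixGroups

namespace Fermat.Agent.Gateway.GoodRed.Forms

/-- A matrix of `SL(2,ℤ)` fixing a point of `ℍ` is `±1` or has `c ≠ 0` and `|a + d| ≤ 1`. -/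
theorem trace_of_fixed (γ : SL(2, ℤ)) (τ : ℍ) (h : γ • τ = τ) :
    γ = 1 ∨ γ = -1 ∨ (γ 0 0 + γ 1 1 = 0 ∨ γ 0 0 + γ 1 1 = 1 ∨ γ 0 0 + γ 1 1 = -1) := by
  have hdet : γ 0 0 * γ 1 1 - γ 0 1 * γ 1 0 = 1 := by
    have := γ.det_coe
    rwa [Matrix.det_fin_two] at this
  set a : ℤ := γ 0 0 with ha
  set b : ℤ := γ 0 1 with hb
  set c : ℤ := γ 1 0 with hc
  set d : ℤ := γ 1 1 with hd
  have hden := Fermat.Agent.S24.Stabilizer.sl_denom_ne_zero γ τ
  have hcoe := Fermat.Agent.S24.Stabilizer.coe_sl_smul γ τ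
  rw [h, eq_div_iff hden] at hcoe
  rw [← ha, ← hb, ← hc, ← hd] at hcoe
  set x : ℝ := (τ : ℂ).re with hx
  set y : ℝ := (τ : ℂ).im with hy
  have hypos : 0 < y := τ.im_pos
  have hre := congrArg Complex.re hcoe
  have him := congrArg Complex.im hcoe
  simp only [Complex.mul_re, Complex.mul_im, Complex.add_re, Complex.add_im, Complex.intCast_re,
    Complex.intCast_im, zero_mul, sub_zero, add_zero, ← hx, ← hy] at hre him
  -- `him : x * (c y) + y (c x + d) = a y`, `hre : x (c x + d) - y (c y) = a x + b`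
  have h1 : (a : ℝ) - d = 2 * c * x := by
    have : y * ((a : ℝ) - d - 2 * c * x) = 0 := by linarith
    rcases mul_eq_zero.mp this with h0 | h0
    · exact absurd h0 hypos.ne'
    · linarith
  have h2 : (b : ℝ) = -c * (x ^ 2 + y ^ 2) := by
    have : (b : ℝ) = c * x ^ 2 - c * y ^ 2 - ((a : ℝ) - d) * x := by linarith
    rw [this, h1]
    ring
  have hdetR : (a : ℝ) * d - b * c = 1 := by exact_mod_cast hdet
  have h3 : ((a : ℝ) + d) ^ 2 = 4 - 4 * (c : ℝ) ^ 2 * y ^ 2 := by
    have : ((a : ℝ) + d) ^ 2 = ((a : ℝ) - d) ^ 2 + 4 * (1 + b * c) := by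
      rw [← hdetR]
      ring
    rw [this, h1, h2]
    ring
  by_cases hc0 : c = 0
  · -- `c = 0`: `γ = ±1`
    have hb0 : b = 0 := by
      have : (b : ℝ) = 0 := by rw [h2, hc0]; simp
      exact_mod_cast this
    have had : a = d := by
      have : (a : ℝ) - d = 0 := by rw [h1, hc0]; simp
      have : (a : ℝ) = d := by linarith
      exact_mod_cast this
    have haa : a * a = 1 := by
      rw [hb0, hc0, ← had] at hdet
      linarith
    rcases Int.eq_one_or_neg_one_of_mul_eq_one haa with h1a | h1a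
    · left
      ext i j
      fin_cases i <;> fin_cases j
      · simpa [← ha] using h1a
      · simpa [← hb] using hb0
      · simpa [← hc] using hc0
      · simpa [← hd] using (had ▸ h1a : d = 1)
    · right; left
      ext i j
      fin_cases i <;> fin_cases j
      · simpa [← ha] using h1a
      · simpa [← hb] using hb0
      · simpa [← hc] using hc0
      · simpa [← hd] using (had ▸ h1a : d = -1)
  · right; right
    have hc2 : (1 : ℝ) ≤ (c : ℝ) ^ 2 := by
      have : (1 : ℤ) ≤ c ^ 2 := by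
        have := sq_nonneg c
        have h0 : c ^ 2 ≠ 0 := pow_ne_zero 2 hc0
        omega
      exact_mod_cast this
    have hlt : ((a : ℝ) + d) ^ 2 < 4 := by
      rw [h3]
      have : 0 < (c : ℝ) ^ 2 * y ^ 2 := by positivity
      linarith
    have hltZ : (a + d) ^ 2 < 4 := by exact_mod_cast hlt
    have hlo : -2 < a + d := by nlinarith
    have hhi : a + d < 2 := by nlinarith
    omega

/-- The arithmetic criterion: no elliptic points for `Γ₀(n)`. -/
theorem no_elliptic_of_zmod (n : ℕ)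
    (hn : ∀ a d : ZMod n, a * d = 1 → a + d ≠ 0 ∧ a + d ≠ 1 ∧ a + d ≠ -1)
    (γ : SL(2, ℤ)) (hγ : γ ∈ Gamma0 n) (τ : ℍ) (h : γ • τ = τ) : γ = 1 ∨ γ = -1 := by
  rcases trace_of_fixed γ τ h with h1 | h1 | h1
  · exact Or.inl h1
  · exact Or.inr h1
  · exfalso
    have hdet : γ 0 0 * γ 1 1 - γ 0 1 * γ 1 0 = 1 := by
      have := γ.det_coe
      rwa [Matrix.det_fin_two] at this
    rw [Gamma0_mem] at hγ
    have hdetn : ((γ 0 0 : ℤ) : ZMod n) * ((γ 1 1 : ℤ) : ZMod n) = 1 := by
      have := congrArg (Int.cast : ℤ → ZMod n) hdet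
      push_cast at this
      rw [hγ, mul_zero, sub_zero] at this
      exact this
    obtain ⟨n0, n1, n2⟩ := hn _ _ hdetn
    rcases h1 with h1 | h1 | h1
    · apply n0
      have := congrArg (Int.cast : ℤ → ZMod n) h1
      push_cast at this
      exact this
    · apply n1
      have := congrArg (Int.cast : ℤ → ZMod n) h1
      push_cast at this
      exact this
    · apply n2
      have := congrArg (Int.cast : ℤ → ZMod n) h1
      push_cast at this
      exact this

/-- `Γ₀(4)` has no elliptic points. -/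
theorem no_elliptic_four (γ : SL(2, ℤ)) (hγ : γ ∈ Gamma0 4) (τ : ℍ) (h : γ • τ = τ) :
    γ = 1 ∨ γ = -1 :=
  no_elliptic_of_zmod 4 (by decide) γ hγ τ h

/-- `Γ₀(9)` has no elliptic points. -/
theorem no_elliptic_nine (γ : SL(2, ℤ)) (hγ : γ ∈ Gamma0 9) (τ : ℍ) (h : γ • τ = τ) :
    γ = 1 ∨ γ = -1 :=
  no_elliptic_of_zmod 9 (by decide) γ hγ τ h

end Fermat.Agent.Gateway.GoodRed.Forms
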