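import Mathlib
import Fermat.Agent.Gateway.Dict.PlacesC

/-!
# WP-GR8g NonVanish: the derivative of a Hauptmodul never vanishes

Let `r` be a level such that `Γ₀(r)` has no elliptic points, `t ∈ FC r` a generator of the function
field `FC r = ℂ(X₀(r))` over `ℂ`, with a holomorphic avatar `θ` (`embC r t = θ`).  Then
`D θ = (2πi)⁻¹ dθ/dτ` vanishes nowhere on `ℍ`.

Proof: fix `τ₀`, `c₀ = θ τ₀`, `u = t - c₀`.  The point `τ₀` gives a place `v` of `FC r` with
`c * v.ord f = ord_{τ₀} (embC f)`; by `place_cases` and the absence of elliptic points `c = 1`.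
Since `FC r = ℂ(u)`, the zero divisor of `u` has degree `1`, so `v.ord u = 1`: `θ - c₀` has a simple
zero at `τ₀`.
-/

set_option autoImplicit false

open UpperHalfPlane ModularCurve CongruenceSubgroup IntermediateField AlgebraicCurve
open scoped MatrixGroups

noncomputable section

namespace Fermat.Agent.Gateway.GoodRed.Forms

open Fermat.Agent.S24 Fermat.Agent.S24.CuspOrd Derivative
open Fermat.Agent.Gateway.Dict.SetupC Fermat.Agent.Gateway.Dict.EmbedC
open Fermat.Agent.Gateway.Dict.PlacesC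

/-! ### The coordinate function -/

/-- The coordinate function `τ ↦ τ - z`. -/
def coordHol (z : ℍ) : HolFun :=
  HolFun.mk (fun τ : ℍ => (τ : ℂ) - (z : ℂ))
    (UpperHalfPlane.mdifferentiable_coe.sub mdifferentiable_const)

theorem coordHol_apply (z τ : ℍ) : (coordHol z : ℍ → ℂ) τ = (τ : ℂ) - (z : ℂ) := rfl

theorem ordAt_coordHol (z : ℍ) : HolFun.ordAt z (coordHol z) = 1 := by
  rw [HolFun.ordAt_apply]
  have h : ((coordHol z : HolFun) : ℍ → ℂ) ∘ ofComplex =ᶠ[nhds (z : ℂ)]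
      fun w : ℂ => w - (z : ℂ) := by
    filter_upwards [isOpen_upperHalfPlaneSet.mem_nhds z.im_pos] with w hw
    rw [Function.comp_apply, coordHol_apply, ofComplex_apply_of_im_pos hw]
  rw [analyticOrderAt_congr h]
  have ha : AnalyticAt ℂ (fun w : ℂ => w - (z : ℂ)) (z : ℂ) := by fun_prop
  have := (ha.analyticOrderAt_eq_natCast (n := 1)).mpr
    ⟨fun _ => 1, analyticAt_const, one_ne_zero, Filter.Eventually.of_forall fun w => by simp⟩
  rw [this]
  rfl

theorem coordHol_ne_zero (z : ℍ) : coordHol z ≠ 0 := by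
  intro h
  have := ordAt_coordHol z
  rw [h, OrdFn.map_zero] at this
  exact absurd this (by simp)

theorem ordMer_coordHol (z : ℍ) :
    MerFun.ordMer z (algebraMap HolFun MerFun (coordHol z)) = 1 := by
  rw [MerFun.ordMer_algebraMap z (coordHol_ne_zero z), OrdFn.nat, ordAt_coordHol]
  rfl

/-- `-1` acts trivially on holomorphic functions. -/
theorem neg_one_smul_holFun (f : HolFun) : (-1 : SL(2, ℤ)) • f = f := by
  ext τ
  rw [HolFun.sl_smul_apply, inv_neg, inv_one, ModularGroup.SL_neg_smul, one_smul]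

/-! ### Simple zeros and the derivative -/

/-- If `θ - θ(τ₀)` has a simple zero at `τ₀` then `D θ τ₀ ≠ 0`. -/
theorem D_ne_zero_of_ordAt_eq_one (θ : HolFun) (τ₀ : ℍ)
    (h : HolFun.ordAt τ₀ (θ - algebraMap ℂ HolFun ((θ : ℍ → ℂ) τ₀)) = 1) :
    D (θ : ℍ → ℂ) τ₀ ≠ 0 := by
  rw [HolFun.ordAt_apply] at h
  set F : ℂ → ℂ := ((θ - algebraMap ℂ HolFun ((θ : ℍ → ℂ) τ₀) : HolFun) : ℍ → ℂ) ∘ ofComplex
    with hF
  have hFa : AnalyticAt ℂ F (τ₀ : ℂ) := HolFun.analyticAt_comp_ofComplex _ τ₀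
  have h1 : analyticOrderAt (deriv F) (τ₀ : ℂ) = ((0 : ℕ) : ℕ∞) :=
    analyticOrderAt_deriv_of_pos hFa (by simpa using h)
  have h2 : deriv F (τ₀ : ℂ) ≠ 0 := by
    have := (hFa.deriv.analyticOrderAt_eq_zero).mp (by simpa using h1)
    exact this
  have h3 : F = fun w => ((θ : ℍ → ℂ) ∘ ofComplex) w - (θ : ℍ → ℂ) τ₀ := by
    funext w
    rfl
  have h4 : deriv F (τ₀ : ℂ) = deriv ((θ : ℍ → ℂ) ∘ ofComplex) (τ₀ : ℂ) := by
    rw [h3, deriv_sub_const]
  rw [normalizedDerivOfComplex]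
  rw [h4] at h2
  refine mul_ne_zero (inv_ne_zero ?_) h2
  have : (2 * (Real.pi : ℂ) * Complex.I) ≠ 0 := by
    simp [Real.pi_ne_zero, Complex.I_ne_zero]
  exact this

/-! ### Places attached to points, without elliptic points -/

theorem finiteDimensional_of_eq_top {F : Type*} [Field F] [Algebra ℂ F]
    {S : IntermediateField ℂ F} (h : S = ⊤) : FiniteDimensional S F := by
  subst h
  exact Module.finite_of_finrank_pos (by rw [IntermediateField.finrank_top]; exact one_pos)

theorem finrank_eq_one_of_eq_top {F : Type*} [Field F] [Algebra ℂ F]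
    {S : IntermediateField ℂ F} (h : S = ⊤) : Module.finrank S F = 1 := by
  subst h
  exact IntermediateField.finrank_top

/-- If `Γ₀(r)` has no elliptic points, every point `τ₀` of `ℍ` gives a place of `FC r` which computes
the orders at `τ₀` exactly. -/
theorem exists_place_ord_eq (r : ℕ) [NeZero r]
    (hell : ∀ γ ∈ Gamma0 r, ∀ τ : ℍ, γ • τ = τ → γ = 1 ∨ γ = -1) (τ₀ : ℍ) :
    ∃ v : Place ℂ (FC r), ∀ f : FC r, f ≠ 0 → v.ord f = MerFun.ordMer τ₀ (embC r f) := by
  have hN : 0 < r := Nat.pos_of_ne_zero (NeZero.ne r)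
  obtain ⟨v, c, hc, hv⟩ := exists_place_of_point r τ₀
  refine ⟨v, ?_⟩
  set f1 : FC r := jF r - algebraMap ℂ (FC r) (jFn τ₀) with hf1
  have hf1ne : f1 ≠ 0 := fun h0 =>
    RH.transcendental_sub_const (transcendental_jF r) (jFn τ₀)
      (by rw [← hf1, h0]; exact isAlgebraic_zero)
  have hemb1 : embC r f1 = algebraMap HolFun MerFun (jHol - algebraMap ℂ HolFun (jFn τ₀)) := by
    rw [hf1, map_sub, embC_jF, embC_const, Conj.const, ← map_sub]
  set n0 : ℤ := if jFn τ₀ = 0 then 3 else if jFn τ₀ = 1728 then 2 else 1 with hn0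
  have hn0pos : 0 < n0 := by
    rw [hn0]
    split_ifs <;> norm_num
  have h1 : (c : ℤ) * v.ord f1 = n0 := by
    rw [hv f1 hf1ne, hemb1, Bridge.ordMer_jHol_sub_const]
  have hcpos : (0 : ℤ) < c := by exact_mod_cast hc
  rcases place_cases r v with ⟨z, δ, e, hδ, hδz, he, -, hdiv, hord⟩ | ⟨g, w, hw, hwN, -, hord⟩
  · have hδ1 : δ • algebraMap HolFun MerFun (coordHol z) =
        algebraMap HolFun MerFun (coordHol z) := by
      rcases hell δ hδ z hδz with rfl | rfl
      · rw [one_smul]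
      · rw [MerFun.sl_smul_algebraMap, neg_one_smul_holFun]
    have he1 : (e : ℤ) = 1 := by
      have h2 := hdiv _ hδ1
      rw [ordMer_coordHol] at h2
      exact Int.eq_one_of_dvd_one (by positivity) h2
    have hz : ∀ f, v.ord f = MerFun.ordMer z (embC r f) := fun f => by
      have := hord f
      rwa [he1, one_mul] at this
    have hjz : jFn z = jFn τ₀ := by
      by_contra hne
      have h3 := hz f1
      rw [hemb1, Bridge.ordMer_jHol_sub_const_of_ne z hne] at h3
      rw [h3, mul_zero] at h1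
      omega
    have h3 : v.ord f1 = n0 := by
      rw [hz f1, hemb1, ← hjz, Bridge.ordMer_jHol_sub_const, hn0, hjz]
    have hc1 : (c : ℤ) = 1 := by
      rw [h3] at h1
      have h4 : ((c : ℤ) - 1) * n0 = 0 := by linear_combination h1
      rcases mul_eq_zero.mp h4 with h5 | h5
      · omega
      · omega
    intro f hf
    have h6 := hv f hf
    rwa [hc1, one_mul] at h6
  · exfalso
    have hj := hord (jF r)
    rw [embC_jF, MerFun.sl_smul_algebraMap, sl_smul_jHol, ordInfMer_jHol hN] at hj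
    have hjne : jF r ≠ 0 := fun h0 => transcendental_jF r (h0 ▸ isAlgebraic_zero)
    have h5 := hv (jF r) hjne
    rw [embC_jF] at h5
    have h6 := MerFun.ordMer_algebraMap_nonneg τ₀ jHol
    have h7 : 0 ≤ v.ord (jF r) := by
      by_contra hlt
      rw [not_le] at hlt
      have : (c : ℤ) * v.ord (jF r) < 0 := mul_neg_of_pos_of_neg hcpos hlt
      omega
    have h8 : (0 : ℤ) ≤ ((r / w : ℕ) : ℤ) * v.ord (jF r) :=
      mul_nonneg (by positivity) h7
    have h9 : (0 : ℤ) < r := by exact_mod_cast hN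
    omega

/-! ### The main theorem -/

/-- **WP-GR8g.** If `Γ₀(r)` has no elliptic points, `t` generates the function field of `X₀(r)`
over `ℂ` and `θ` is a holomorphic avatar of `t`, then `D θ` vanishes nowhere on `ℍ`. -/
theorem D_ne_zero_of_hauptmodul (r : ℕ) [NeZero r]
    (hell : ∀ γ ∈ Gamma0 r, ∀ τ : ℍ, γ • τ = τ → γ = 1 ∨ γ = -1)
    (t : FC r) (hgen : IntermediateField.adjoin ℂ {t} = ⊤)
    (θ : HolFun) (hθ : embC r t = algebraMap HolFun MerFun θ) (τ₀ : ℍ) :
    D (θ : ℍ → ℂ) τ₀ ≠ 0 := by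
  obtain ⟨v, hv⟩ := exists_place_ord_eq r hell τ₀
  set c₀ : ℂ := (θ : ℍ → ℂ) τ₀ with hc₀
  set u : FC r := t - algebraMap ℂ (FC r) c₀ with hu
  have htt : Transcendental ℂ t := by
    intro halg
    have h1 : Algebra.IsAlgebraic ℂ ℂ⟮t⟯ :=
      IntermediateField.isAlgebraic_adjoin_simple halg.isIntegral
    have hj : jF r ∈ ℂ⟮t⟯ := by
      rw [hgen]
      trivial
    have h2 : IsAlgebraic ℂ (⟨jF r, hj⟩ : ℂ⟮t⟯) := Algebra.IsAlgebraic.isAlgebraic _
    exact transcendental_jF r (h2.algebraMap (A := FC r))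
  have hut : Transcendental ℂ u := RH.transcendental_sub_const htt c₀
  have hu0 : u ≠ 0 := fun h0 => hut (h0 ▸ isAlgebraic_zero)
  have hadj : ℂ⟮u⟯ = ⊤ := by
    rw [hu, RH.adjoin_sub_const t c₀]
    exact hgen
  have hembu : embC r u = algebraMap HolFun MerFun (θ - algebraMap ℂ HolFun c₀) := by
    rw [hu, map_sub, hθ, embC_const, Conj.const, ← map_sub]
  have hθne : θ - algebraMap ℂ HolFun c₀ ≠ 0 := by
    intro h0
    rw [h0, map_zero] at hembu
    exact hu0 ((embC r).injective (by rw [hembu, map_zero]))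
  have hordu : v.ord u = ((HolFun.ordAt τ₀).nat (θ - algebraMap ℂ HolFun c₀) : ℤ) := by
    rw [hv u hu0, hembu, MerFun.ordMer_algebraMap τ₀ hθne]
  have hval : ((θ - algebraMap ℂ HolFun c₀ : HolFun) : ℍ → ℂ) τ₀ = 0 := by
    rw [HolFun.coe_sub_apply, HolFun.coe_algebraMap, hc₀, sub_self]
  have hne0 : HolFun.ordAt τ₀ (θ - algebraMap ℂ HolFun c₀) ≠ 0 := by
    rw [Ne, HolFun.ordAt_eq_zero_iff]
    exact fun h => h hval
  have hcoe := OrdFn.coe_nat (HolFun.ordAt τ₀) hθne
  have hnatpos : 0 < (HolFun.ordAt τ₀).nat (θ - algebraMap ℂ HolFun c₀) := by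
    rcases Nat.eq_zero_or_pos ((HolFun.ordAt τ₀).nat (θ - algebraMap ℂ HolFun c₀)) with h0 | h0
    · rw [h0] at hcoe
      exact absurd hcoe.symm hne0
    · exact h0
  have hpos : 0 < v.ord u := by
    rw [hordu]
    exact_mod_cast hnatpos
  have hfd : FiniteDimensional ℂ⟮u⟯ (FC r) := finiteDimensional_of_eq_top hadj
  obtain ⟨inst, hsum⟩ := ZD.sum_ord_zeros u hut
  have hfr : Module.finrank ℂ⟮u⟯ (FC r) = 1 := finrank_eq_one_of_eq_top hadj
  have hle : v.ord u ≤ 1 := by
    have h1 := Finset.single_le_sum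
      (f := fun w : {v : Place ℂ (FC r) // 0 < v.ord u} => w.1.ord u)
      (fun w _ => le_of_lt w.2) (Finset.mem_univ ⟨v, hpos⟩)
    rw [hsum, hfr] at h1
    exact_mod_cast h1
  have hnat1 : (HolFun.ordAt τ₀).nat (θ - algebraMap ℂ HolFun c₀) = 1 := by
    have h2 : v.ord u = 1 := by omega
    rw [hordu] at h2
    exact_mod_cast h2
  apply D_ne_zero_of_ordAt_eq_one
  rw [← hc₀, ← hcoe, hnat1]
  rfl

end Fermat.Agent.Gateway.GoodRed.Forms
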