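import Mathlib
import Fermat.Agent.Gateway.GoodRed.Forms
import Fermat.Agent.Gateway.GoodRed.Forms.AvatarBar
import Fermat.Agent.Gateway.GoodRed.Forms.NonVanish
import Fermat.Agent.Gateway.GoodRed.Forms.NoElliptic
import Fermat.Agent.Gateway.GoodRed.Forms.GenC
import Fermat.Agent.Gateway.AuxLevel.Membership
import Fermat.Agent.Gateway.AuxLevel.LeadCoeff

/-!
# WP-GR8 glue: the data `FormsData M` at the auxiliary levels `4 ∣ M` and `9 ∣ M`

`exists_formsData`: a Hauptmodul `tq` of a level `r ∣ M` without elliptic points, integral over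
`Kbar[j]`, gives a `FormsData M` (avatar from `AvatarBar`, nonvanishing of the derivative from
`NonVanish`).  Instances: `x₄` (level 4) and `y₉` (level 9) of `AuxLevel`.
-/

set_option autoImplicit false

open UpperHalfPlane ModularCurve CongruenceSubgroup IntermediateField
open scoped MatrixGroups

noncomputable section

namespace Fermat.Agent.Gateway.GoodRed.Forms

open Fermat.Agent.S24 Fermat.Agent.S24.QExp Fermat.Agent.S24.Setup Derivative
open Fermat.Agent.Gateway.Dict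

variable (r : ℕ) [NeZero r]

/-! ### The data from a Hauptmodul -/

/-- **The data of WP-GR8 from a Hauptmodul** of a level `r ∣ M` without elliptic points. -/
theorem exists_formsData {M : ℕ} [NeZero M] (hrM : r ∣ M)
    (hell : ∀ γ ∈ Gamma0 r, ∀ τ : ℍ, γ • τ = τ → γ = 1 ∨ γ = -1)
    (tq : LaurentSeries Kbar) (hmem : tq ∈ modularFunctionFieldBar r)
    (hgen : modularFunctionFieldBar r = Kbar⟮tq⟯)
    (hint : IsIntegral (Algebra.adjoin Kbar {jF r}) (⟨tq, hmem⟩ : FF r)) :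
    ∃ A : FormsData M, A.tq = tq := by
  obtain ⟨hM, θ, hθ, hq, t, ht, hemb⟩ := exists_forms_fields hrM tq hmem hint
  have htt : t = iotaF r ⟨tq, hmem⟩ := Subtype.ext ht
  have hgenC : ℂ⟮t⟯ = ⊤ := by
    rw [htt]
    exact adjoin_iotaF_eq_top r tq hmem hgen
  exact ⟨⟨tq, hM, θ, hθ, hq, D_ne_zero_of_hauptmodul r hell t hgenC θ hemb⟩, rfl⟩

/-- **WP-GR8 at a Hauptmodul level.**  `exists_forms` for the data of `exists_formsData`, with the
Hauptmodul given by an integral `q`-series `tqZ`. -/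
theorem exists_forms_of_hauptmodul {M : ℕ} [NeZero M] (hrM : r ∣ M)
    (hell : ∀ γ ∈ Gamma0 r, ∀ τ : ℍ, γ • τ = τ → γ = 1 ∨ γ = -1)
    (tqZ : LaurentSeries ℤ)
    (hmem : coeffMap (Int.castRingHom Kbar) tqZ ∈ modularFunctionFieldBar r)
    (hgen : modularFunctionFieldBar r = Kbar⟮coeffMap (Int.castRingHom Kbar) tqZ⟯)
    (hint : IsIntegral (Algebra.adjoin Kbar {jF r})
      (⟨coeffMap (Int.castRingHom Kbar) tqZ, hmem⟩ : FF r))
    (hu : IsUnit (HahnSeries.single (1 : ℤ) (1 : ℤ) *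
      Fermat.Agent.Lib.Residue.D tqZ).leadingCoeff)
    (hmemM : coeffMap (Int.castRingHom Kbar) tqZ ∈ modularFunctionFieldBar M) :
    ∃ (qf : Fin (Module.finrank ℂ (CuspForm (Gamma0 M) 2)) → PowerSeries ℤ)
      (hZ : Fin (Module.finrank ℂ (CuspForm (Gamma0 M) 2)) → LaurentSeries ℤ)
      (h : Fin (Module.finrank ℂ (CuspForm (Gamma0 M) 2)) → FF M),
      (∀ i, PowerSeries.constantCoeff (qf i) = 0) ∧
      (∀ i, hZ i * (HahnSeries.single (1 : ℤ) (1 : ℤ) * Fermat.Agent.Lib.Residue.D tqZ) =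
        HahnSeries.ofPowerSeries ℤ ℤ (qf i)) ∧
      (∀ i, ((h i : FF M) : LaurentSeries Kbar) = coeffMap (Int.castRingHom Kbar) (hZ i)) ∧
      (∀ i, IsIntegral (Algebra.adjoin Kbar {jF M}) (h i)) ∧
      (∀ i (σ : FF M →+* LaurentSeries Kbar),
        (∀ c : Kbar, σ (algebraMap Kbar (FF M) c) = HahnSeries.C c) →
        σ (jF M) = qExpand Kbar M (jK 1) →
        ∀ n : ℤ, n < 0 → (σ (h i) * Fermat.Agent.Lib.Residue.D
          (σ (⟨coeffMap (Int.castRingHom Kbar) tqZ, hmemM⟩ : FF M))).coeff n = 0) ∧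
      (∀ (k : Type) [Field k] (p : ℕ) [CharP k p], p.Prime →
        LinearIndependent k (fun i => (qf i).map (Int.castRingHom k))) := by
  obtain ⟨A, hA⟩ := exists_formsData r hrM hell _ hmem hgen hint
  have htF : A.tF = (⟨coeffMap (Int.castRingHom Kbar) tqZ, hmemM⟩ : FF M) := Subtype.ext hA
  have h := exists_forms A tqZ hA hu
  rw [htF] at h
  exact h

/-! ### Level four -/

section Four

open Fermat.Agent.Gateway.AuxLevel

theorem monic_P4 : L4.P4.Monic := by
  rw [L4.P4]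
  apply Polynomial.Monic.pow
  monicity!

theorem isIntegral_x4K :
    IsIntegral (Algebra.adjoin Kbar {jF 4}) (⟨L4.x4K, L4.x4K_mem⟩ : FF 4) :=
  isIntegral_bar_of_rel 4 L4.x4K L4.x4K_mem L4.P4 L4.Q4 monic_P4
    (Polynomial.degree_lt_degree (by rw [L4.natDegree_P4, L4.natDegree_Q4]; norm_num))
    L4.rel_x4K.symm

/-- **WP-GR8 at a level divisible by four**, with `t = x₄`. -/
theorem exists_forms_four {M : ℕ} [NeZero M] (h4 : 4 ∣ M) :
    ∃ (qf : Fin (Module.finrank ℂ (CuspForm (Gamma0 M) 2)) → PowerSeries ℤ)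
      (hZ : Fin (Module.finrank ℂ (CuspForm (Gamma0 M) 2)) → LaurentSeries ℤ)
      (h : Fin (Module.finrank ℂ (CuspForm (Gamma0 M) 2)) → FF M),
      (∀ i, PowerSeries.constantCoeff (qf i) = 0) ∧
      (∀ i, hZ i * (HahnSeries.single (1 : ℤ) (1 : ℤ) * Fermat.Agent.Lib.Residue.D L4.x4) =
        HahnSeries.ofPowerSeries ℤ ℤ (qf i)) ∧
      (∀ i, ((h i : FF M) : LaurentSeries Kbar) = coeffMap (Int.castRingHom Kbar) (hZ i)) ∧
      (∀ i, IsIntegral (Algebra.adjoin Kbar {jF M}) (h i)) ∧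
      (∀ i (σ : FF M →+* LaurentSeries Kbar),
        (∀ c : Kbar, σ (algebraMap Kbar (FF M) c) = HahnSeries.C c) →
        σ (jF M) = qExpand Kbar M (jK 1) →
        ∀ n : ℤ, n < 0 → (σ (h i) * Fermat.Agent.Lib.Residue.D
          (σ (⟨L4.x4K, L4.x4K_mem_of_dvd h4⟩ : FF M))).coeff n = 0) ∧
      (∀ (k : Type) [Field k] (p : ℕ) [CharP k p], p.Prime →
        LinearIndependent k (fun i => (qf i).map (Int.castRingHom k))) :=
  exists_forms_of_hauptmodul 4 h4 no_elliptic_four L4.x4 L4.x4K_mem L4.FF_four_eq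
    isIntegral_x4K L4.isUnit_leadingCoeff_x4 (L4.x4K_mem_of_dvd h4)

/-- The data of WP-GR8 at a level divisible by four, with `t = x₄`. -/
def formsData4 (M : ℕ) [NeZero M] (h4 : 4 ∣ M) : FormsData M :=
  Classical.choose (exists_formsData 4 h4 no_elliptic_four L4.x4K L4.x4K_mem L4.FF_four_eq
    isIntegral_x4K)

theorem formsData4_tq (M : ℕ) [NeZero M] (h4 : 4 ∣ M) : (formsData4 M h4).tq = L4.x4K :=
  Classical.choose_spec (exists_formsData 4 h4 no_elliptic_four L4.x4K L4.x4K_mem L4.FF_four_eq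
    isIntegral_x4K)

theorem formsData4_tq' (M : ℕ) [NeZero M] (h4 : 4 ∣ M) :
    (formsData4 M h4).tq = coeffMap (Int.castRingHom Kbar) L4.x4 := formsData4_tq M h4

theorem formsData4_tF (M : ℕ) [NeZero M] (h4 : 4 ∣ M) :
    (formsData4 M h4).tF = (⟨L4.x4K, L4.x4K_mem_of_dvd h4⟩ : FF M) :=
  Subtype.ext (formsData4_tq M h4)

end Four

/-! ### Level nine -/

section Nine

open Fermat.Agent.Gateway.AuxLevel

theorem monic_P9 : L9.P9.Monic := by
  rw [L9.P9]
  apply Polynomial.Monic.mul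
  · exact (Polynomial.monic_X_add_C _).pow 3
  · apply Polynomial.Monic.pow
    monicity!

theorem isIntegral_y9K :
    IsIntegral (Algebra.adjoin Kbar {jF 9}) (⟨L9.y9K, L9.y9K_mem⟩ : FF 9) :=
  isIntegral_bar_of_rel 9 L9.y9K L9.y9K_mem L9.P9 L9.Q9 monic_P9
    (Polynomial.degree_lt_degree (by rw [L9.natDegree_P9, L9.natDegree_Q9]; norm_num))
    L9.rel_y9K.symm

/-- **WP-GR8 at a level divisible by nine**, with `t = y₉`. -/
theorem exists_forms_nine {M : ℕ} [NeZero M] (h9 : 9 ∣ M) :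
    ∃ (qf : Fin (Module.finrank ℂ (CuspForm (Gamma0 M) 2)) → PowerSeries ℤ)
      (hZ : Fin (Module.finrank ℂ (CuspForm (Gamma0 M) 2)) → LaurentSeries ℤ)
      (h : Fin (Module.finrank ℂ (CuspForm (Gamma0 M) 2)) → FF M),
      (∀ i, PowerSeries.constantCoeff (qf i) = 0) ∧
      (∀ i, hZ i * (HahnSeries.single (1 : ℤ) (1 : ℤ) * Fermat.Agent.Lib.Residue.D L9.y9) =
        HahnSeries.ofPowerSeries ℤ ℤ (qf i)) ∧
      (∀ i, ((h i : FF M) : LaurentSeries Kbar) = coeffMap (Int.castRingHom Kbar) (hZ i)) ∧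
      (∀ i, IsIntegral (Algebra.adjoin Kbar {jF M}) (h i)) ∧
      (∀ i (σ : FF M →+* LaurentSeries Kbar),
        (∀ c : Kbar, σ (algebraMap Kbar (FF M) c) = HahnSeries.C c) →
        σ (jF M) = qExpand Kbar M (jK 1) →
        ∀ n : ℤ, n < 0 → (σ (h i) * Fermat.Agent.Lib.Residue.D
          (σ (⟨L9.y9K, L9.y9K_mem_of_dvd h9⟩ : FF M))).coeff n = 0) ∧
      (∀ (k : Type) [Field k] (p : ℕ) [CharP k p], p.Prime →
        LinearIndependent k (fun i => (qf i).map (Int.castRingHom k))) :=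
  exists_forms_of_hauptmodul 9 h9 no_elliptic_nine L9.y9 L9.y9K_mem L9.FF_nine_eq
    isIntegral_y9K L9.isUnit_leadingCoeff_y9 (L9.y9K_mem_of_dvd h9)

/-- The data of WP-GR8 at a level divisible by nine, with `t = y₉`. -/
def formsData9 (M : ℕ) [NeZero M] (h9 : 9 ∣ M) : FormsData M :=
  Classical.choose (exists_formsData 9 h9 no_elliptic_nine L9.y9K L9.y9K_mem L9.FF_nine_eq
    isIntegral_y9K)

theorem formsData9_tq (M : ℕ) [NeZero M] (h9 : 9 ∣ M) : (formsData9 M h9).tq = L9.y9K :=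
  Classical.choose_spec (exists_formsData 9 h9 no_elliptic_nine L9.y9K L9.y9K_mem L9.FF_nine_eq
    isIntegral_y9K)

theorem formsData9_tq' (M : ℕ) [NeZero M] (h9 : 9 ∣ M) :
    (formsData9 M h9).tq = coeffMap (Int.castRingHom Kbar) L9.y9 := formsData9_tq M h9

theorem formsData9_tF (M : ℕ) [NeZero M] (h9 : 9 ∣ M) :
    (formsData9 M h9).tF = (⟨L9.y9K, L9.y9K_mem_of_dvd h9⟩ : FF M) :=
  Subtype.ext (formsData9_tq M h9)

end Nine

end Fermat.Agent.Gateway.GoodRed.Forms
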