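import Mathlib
import Fermat.Agent.Gateway.GoodRed.Forms.Analytic

/-!
# WP-GR8 (c'): the analytic function `h = F / D t` for a weight two MODULAR form `F`

The machinery of `Forms/Analytic.lean` (`han`, `smul_han_mem`, `exists_embC_eq_han`,
`exists_monic_relation`, `qLaurent_han_mul`) for a weight two form which is only bounded at the
cusps.  The input is the structure `WtTwo M`: a holomorphic function, `Γ₀(M)`-invariant of weight
two, all of whose `SL(2,ℤ)`-slashes are bounded at `i∞`.  `WtTwo.ofModularForm` builds it from a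
modular form of any level `N ∣ M`.
-/

set_option autoImplicit false
set_option linter.unusedSectionVars false

open UpperHalfPlane Complex Filter ModularForm CongruenceSubgroup
open scoped Manifold MatrixGroups ModularForm

noncomputable section

namespace Fermat.Agent.Gateway.GoodRed.Forms

open Fermat.Agent.S24 Fermat.Agent.S24.QExp Derivative
open Fermat.Agent.S24.CuspOrd (cuspFnAlg IsCuspFn IsCuspMer)

/-- A weight two form of level `Γ₀(M)`, bounded at all cusps, as a bare function. -/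
structure WtTwo (M : ℕ) where
  /-- the function -/
  F : ℍ → ℂ
  holo : MDiff F
  inv : ∀ γ ∈ Gamma0 M, F ∣[(2 : ℤ)] γ = F
  bdd : ∀ g : SL(2, ℤ), IsBoundedAtImInfty (F ∣[(2 : ℤ)] g)

/-- A modular form of weight two and level `N ∣ M` as a `WtTwo M`. -/
def WtTwo.ofModularForm {N M : ℕ} [NeZero N] (hNM : N ∣ M)
    (G : ModularForm ((Gamma0 N : Subgroup SL(2, ℤ)) : Subgroup (GL (Fin 2) ℝ)) 2) : WtTwo M :=
  have h := (Fermat.Agent.S20.Free.isMF_iff (Γ := Gamma0 N) (k := 2) (f := (G : ℍ → ℂ))).mp ⟨G, rfl⟩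
  { F := G
    holo := h.1
    inv := fun γ hγ => h.2.1 γ (by
      rw [Gamma0_mem] at hγ ⊢
      obtain ⟨c, rfl⟩ := hNM
      have h2 : ((γ 1 0 : ℤ) : ZMod N) = ZMod.castHom (dvd_mul_right N c) (ZMod N)
          ((γ 1 0 : ℤ) : ZMod (N * c)) := by simp
      rw [h2, hγ, map_zero])
    bdd := h.2.2 }

@[simp] theorem WtTwo.ofModularForm_F {N M : ℕ} [NeZero N] (hNM : N ∣ M)
    (G : ModularForm ((Gamma0 N : Subgroup SL(2, ℤ)) : Subgroup (GL (Fin 2) ℝ)) 2) :
    (WtTwo.ofModularForm hNM G).F = G := rfl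

section Form

variable {M : ℕ} [NeZero M] (T : HauptAn M) (W : WtTwo M)

theorem isCuspFn_slashW (g : SL(2, ℤ)) : IsCuspFn M (W.F ∣[(2 : ℤ)] g) :=
  ⟨W.holo.slash 2 _, isPer_slash W.inv g, ModGrowth.of_isBoundedAtImInfty (W.bdd g)⟩

/-- The cusp function `F ∣[2] g⁻¹`. -/
def fslW (g : SL(2, ℤ)) : cuspFnAlg M :=
  ⟨⟨W.F ∣[(2 : ℤ)] g⁻¹, (isCuspFn_slashW W g⁻¹).mdiff⟩, isCuspFn_slashW W g⁻¹⟩

theorem fslW_apply (g : SL(2, ℤ)) (z : ℍ) :
    (((fslW W g : cuspFnAlg M) : HolFun) : ℍ → ℂ) z =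
      W.F (g⁻¹ • z) * UpperHalfPlane.denom (g⁻¹ : SL(2, ℤ)) z ^ (-(2 : ℤ)) := by
  show (W.F ∣[(2 : ℤ)] g⁻¹) z = _
  rw [ModularForm.SL_slash_apply]

theorem fslW_isBounded (g : SL(2, ℤ)) :
    IsBoundedAtImInfty (((fslW W g : cuspFnAlg M) : HolFun) : ℍ → ℂ) :=
  W.bdd g⁻¹

/-- The holomorphic function `h = F / D θ`. -/
def hanW : HolFun :=
  ⟨fun z => W.F z / D (T.θ : ℍ → ℂ) z, by
    have hf := UpperHalfPlane.mdifferentiable_iff.mp W.holo
    have hd := UpperHalfPlane.mdifferentiable_iff.mp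
      (normalizedDerivOfComplex_mdifferentiable T.θ.2)
    refine UpperHalfPlane.mdifferentiable_iff.mpr ((hf.div hd ?_).congr ?_)
    · intro w hw
      exact T.dne _
    · intro w hw
      rfl⟩

theorem hanW_apply (z : ℍ) : ((hanW T W : HolFun) : ℍ → ℂ) z = W.F z / D (T.θ : ℍ → ℂ) z := rfl

/-- **The key identity** `(g • h) * D (g • θ) = F ∣[2] g⁻¹`. -/
theorem smul_hanW_mul (g : SL(2, ℤ)) :
    (g • hanW T W) * ((T.dtr g : cuspFnAlg M) : HolFun) = ((fslW W g : cuspFnAlg M) : HolFun) := by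
  apply HolFun.ext
  intro z
  rw [HolFun.coe_mul_apply, HolFun.sl_smul_apply, hanW_apply, T.dtr_apply, fslW_apply]
  have := T.dne (g⁻¹ • z)
  field_simp

theorem smul_hanW_mem (g : SL(2, ℤ)) : g • hanW T W ∈ cuspFnAlg M :=
  mem_cuspFnAlg_of_mul_eq (Nat.pos_of_ne_zero (NeZero.ne M)) (fslW W g).2 (T.dtr g).2
    (dtr_ne_zero' T g) (smul_hanW_mul T W g)

/-- The translate `g • h` as a cusp function. -/
def hslW (g : SL(2, ℤ)) : cuspFnAlg M := ⟨g • hanW T W, smul_hanW_mem T W g⟩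

theorem hslW_mul (g : SL(2, ℤ)) : hslW T W g * T.dtr g = fslW W g :=
  Subtype.ext (smul_hanW_mul T W g)

theorem hanW_inv (γ : SL(2, ℤ)) (hγ : γ ∈ Gamma0 M) : γ • hanW T W = hanW T W := by
  apply HolFun.ext
  intro z
  rw [HolFun.sl_smul_apply, hanW_apply, hanW_apply]
  have hγ' : γ⁻¹ ∈ Gamma0 M := inv_mem hγ
  have e1 := congrFun (W.inv γ⁻¹ hγ') z
  rw [ModularForm.SL_slash_apply] at e1
  have e2 : D (T.θ : ℍ → ℂ) (γ⁻¹ • z) * UpperHalfPlane.denom (γ⁻¹ : SL(2, ℤ)) z ^ (-(2 : ℤ))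
      = D (T.θ : ℍ → ℂ) z := by
    have := congrFun (D_smul T.θ γ) z
    rw [T.inv γ hγ, ModularForm.SL_slash_apply] at this
    exact this.symm
  have hden : UpperHalfPlane.denom (γ⁻¹ : SL(2, ℤ)) z ^ (-(2 : ℤ)) ≠ 0 :=
    zpow_ne_zero _ (UpperHalfPlane.denom_ne_zero _ _)
  rw [← e1, ← e2, mul_div_mul_right _ _ hden]

theorem hanW_mem_growthAlg : hanW T W ∈ SymmFn.growthAlg :=
  fun γ => (smul_hanW_mem T W γ).growth

/-- `h` lies in the image of the analytic embedding of `ℂ(X₀(M))`. -/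
theorem exists_embC_eq_hanW :
    ∃ x : Fermat.Agent.Gateway.Dict.SetupC.FC M,
      Fermat.Agent.Gateway.Dict.EmbedC.embC M x = algebraMap HolFun MerFun (hanW T W) := by
  have := (Fermat.Agent.Gateway.Dict.RangeC.mem_range_embC_iff M
    (algebraMap HolFun MerFun (hanW T W))).mpr ⟨?_, ?_⟩
  · exact this
  · intro γ hγ
    rw [MerFun.sl_smul_algebraMap, hanW_inv T W γ hγ]
  · intro g
    rw [MerFun.sl_smul_algebraMap]
    exact CuspOrd.isCuspMer_algebraMap (smul_hanW_mem T W g)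

/-! ### `q`-expansions at `i∞` -/

theorem hanW_mem_perFun : hanW T W ∈ PerFun := by
  refine ⟨isPer_one_of_inv (hanW_inv T W), ?_⟩
  have := (smul_hanW_mem T W 1).growth
  rwa [one_smul] at this

theorem formW_isBounded : IsBoundedAtImInfty W.F := by
  have := W.bdd 1
  rwa [SlashAction.slash_one] at this

theorem formW_mem_perFun : (⟨W.F, W.holo⟩ : HolFun) ∈ PerFun := by
  refine ⟨?_, ModGrowth.of_isBoundedAtImInfty (formW_isBounded W)⟩
  intro z
  have h1 := congrFun (W.inv _ (T_mem_Gamma0 (M := M))) z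
  rw [ModularForm.SL_slash_apply, ModularGroup.denom_apply] at h1
  have hT10 : (ModularGroup.T : SL(2, ℤ)) 1 0 = 0 := by simp [ModularGroup.T]
  have hT11 : (ModularGroup.T : SL(2, ℤ)) 1 1 = 1 := by simp [ModularGroup.T]
  rw [hT10, hT11, UpperHalfPlane.modular_T_smul] at h1
  simpa using h1

/-- **`q`-expansion of `h`**: `h * q dθ/dq = F` as Laurent series. -/
theorem qLaurent_hanW_mul :
    qLaurent ⟨hanW T W, hanW_mem_perFun T W⟩ *
        (HahnSeries.single (1 : ℤ) (1 : ℂ) *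
          Fermat.Agent.Lib.Residue.D (qLaurent ⟨T.θ, theta_mem_perFun T⟩)) =
      HahnSeries.ofPowerSeries ℤ ℂ (qExpansion 1 W.F) := by
  rw [← qLaurent_dPer, ← map_mul]
  have h1 : (⟨hanW T W, hanW_mem_perFun T W⟩ : PerFun) * dPer ⟨T.θ, theta_mem_perFun T⟩ =
      ⟨⟨W.F, W.holo⟩, formW_mem_perFun W⟩ := by
    apply fn_injective
    funext z
    show (W.F z / D (T.θ : ℍ → ℂ) z) * D (T.θ : ℍ → ℂ) z = W.F z
    exact div_mul_cancel₀ _ (T.dne z)
  rw [h1]
  exact qLaurent_of_bdd _ (formW_isBounded W)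

/-- **Integrality over `ℂ[j]`** of the preimage of `h` in the function field. -/
theorem exists_monic_relationW (x : Fermat.Agent.Gateway.Dict.SetupC.FC M)
    (hx : Fermat.Agent.Gateway.Dict.EmbedC.embC M x = algebraMap HolFun MerFun (hanW T W)) :
    ∃ (n : ℕ) (p : ℕ → Polynomial ℂ),
      x ^ n + ∑ i ∈ Finset.range n,
        Polynomial.aeval (Fermat.Agent.Gateway.Dict.SetupC.jF M) (p i) * x ^ i = 0 := by
  obtain ⟨p, hp1, hrel⟩ := SymmFn.exists_relation (Gamma0 M) (hanW T W) (hanW_inv T W)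
    (hanW_mem_growthAlg T W)
  refine ⟨(Gamma0 M).index, p, ?_⟩
  apply Fermat.Agent.Gateway.Dict.EmbedC.embC_injective M
  have hae : ∀ q : Polynomial ℂ, Fermat.Agent.Gateway.Dict.EmbedC.embC M
      (Polynomial.aeval (Fermat.Agent.Gateway.Dict.SetupC.jF M) q) =
      algebraMap HolFun MerFun (Polynomial.aeval jHol q) := fun q =>
    Fermat.Agent.Gateway.Dict.DegreeC.emb_aeval (Fermat.Agent.Gateway.Dict.EmbedC.embData M) q
  rw [map_add, map_pow, map_sum, map_zero, hx]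
  simp only [map_mul, map_pow, hae, hx]
  rw [Finset.sum_range_succ, hp1, one_mul] at hrel
  have := congrArg (algebraMap HolFun MerFun) hrel
  rw [map_add, map_sum, map_pow, map_zero] at this
  simp only [map_mul, map_pow] at this
  rw [add_comm]
  exact this

/-! ### `z`-expansions at all cusps -/

/-- **At most simple poles at the cusps**, analytic form: the `z`-expansion of
`(g • h) * d(g • θ)/dz` has at most a simple pole. -/
theorem zL_hslW_mul_D (g : SL(2, ℤ)) {n : ℤ} (hn : n < -1) :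
    (zL M (hslW T W g) * Fermat.Agent.Lib.Residue.D (zL M (T.tr g))).coeff n = 0 := by
  have hM : (M : ℂ) ≠ 0 := by exact_mod_cast NeZero.ne M
  have h1 : zL M (hslW T W g) * zL M (T.dtr g) = zL M (fslW W g) := by
    rw [← map_mul, hslW_mul]
  rw [HauptAn.dtr, zL_dCusp] at h1
  have h2 : zL M (hslW T W g) * Fermat.Agent.Lib.Residue.D (zL M (T.tr g)) =
      HahnSeries.C (M : ℂ) * (HahnSeries.single (-1 : ℤ) (1 : ℂ) * zL M (fslW W g)) := by
    rw [← h1]
    have e1 : HahnSeries.C (M : ℂ) * HahnSeries.C ((M : ℂ)⁻¹) = (1 : LaurentSeries ℂ) := by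
      rw [← map_mul, mul_inv_cancel₀ hM, map_one]
    have e2 : HahnSeries.single (-1 : ℤ) (1 : ℂ) * HahnSeries.single (1 : ℤ) (1 : ℂ) =
        (1 : LaurentSeries ℂ) := by
      rw [HahnSeries.single_mul_single]
      simp
    calc zL M (hslW T W g) * Fermat.Agent.Lib.Residue.D (zL M (T.tr g))
        = (HahnSeries.C (M : ℂ) * HahnSeries.C ((M : ℂ)⁻¹)) *
          ((HahnSeries.single (-1 : ℤ) (1 : ℂ) * HahnSeries.single (1 : ℤ) (1 : ℂ)) *
            (zL M (hslW T W g) * Fermat.Agent.Lib.Residue.D (zL M (T.tr g)))) := by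
          rw [e1, e2, one_mul, one_mul]
      _ = _ := by ring
  rw [h2, HahnSeries.C_apply, Fermat.Agent.Lib.Residue.coeff_single_mul',
    Fermat.Agent.Lib.Residue.coeff_single_mul']
  have : n - 0 - -1 < 0 := by omega
  rw [zL_coeff_of_isBoundedAtImInfty M (fslW W g) (fslW_isBounded W g) this, mul_zero, mul_zero]

end Form

end Fermat.Agent.Gateway.GoodRed.Forms
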