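import Mathlib
import Fermat.Agent.Gateway.GoodRed.Forms
import Fermat.Agent.Gateway.GoodRed.Forms.AnalyticW2
import Fermat.Agent.Gateway.GoodRed.Forms.AuxData

/-!
# WP-GR8 for weight two MODULAR forms (not necessarily cuspidal)

For the data `A : FormsData M` (a function `t ∈ F_M` with analytic avatar of nowhere vanishing
derivative) and a weight two modular form `G` of level `N ∣ M` whose `q`-expansion `qf` has
coefficients in `Kbar`: `Ψ := qf / (q dt/dq)` lies in `F_M`, is integral over `Kbar[j]`, and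
`Ψ dt` has at most simple poles at the cusps.  Specialisations to `t = x₄` (`4 ∣ M`) and `t = y₉`
(`9 ∣ M`).
-/

set_option autoImplicit false

open UpperHalfPlane ModularCurve CongruenceSubgroup
open scoped MatrixGroups

noncomputable section

namespace Fermat.Agent.Gateway.GoodRed.Forms

open Fermat.Agent.S24 Fermat.Agent.S24.QExp Fermat.Agent.S24.Setup Derivative
open Fermat.Agent.S24.CuspOrd (cuspFnAlg)
open Fermat.Agent.Gateway.Dict

variable {M : ℕ} [NeZero M]

namespace FormsData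

variable (A : FormsData M) (W : WtTwo M)
  (qf : PowerSeries Kbar) (hqf : qExpansion 1 W.F = qf.map iota)

include hqf

/-- The base change of `Ψ` to `ℂ` is the `q`-expansion of the analytic function `F / D θ`. -/
theorem coeffMap_hqW :
    coeffMap iota (hq A.tq qf) = qLaurent ⟨hanW A.hauptAn W, hanW_mem_perFun A.hauptAn W⟩ := by
  have h1 := qLaurent_hanW_mul A.hauptAn W
  rw [A.qLaurent_hauptAn, ← coeffMap_Gq, hqf, ← coeffMap_ofPowerSeries] at h1
  rw [hq, map_div₀, div_eq_iff A.coeffMap_Gq_ne_zero]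
  exact h1.symm

/-- The preimage of `Ψ` in `ℂ(X₀(M))`. -/
theorem exists_xCW : ∃ x : SetupC.FC M,
    EmbedC.embC M x = algebraMap HolFun MerFun (hanW A.hauptAn W) ∧
      (x : LaurentSeries ℂ) = coeffMap iota (hq A.tq qf) := by
  obtain ⟨x, hx⟩ := exists_embC_eq_hanW A.hauptAn W
  refine ⟨x, hx, ?_⟩
  rw [A.coeffMap_hqW W qf hqf]
  exact (EmbedC.qLaurent_eq_of_embC_eq M x (hanW_mem_perFun A.hauptAn W) hx).symm

/-- **(α1)** `Ψ = qf / G` lies in the function field `F_M`. -/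
theorem hq_memW : hq A.tq qf ∈ modularFunctionFieldBar M := by
  obtain ⟨x, -, hx⟩ := A.exists_xCW W qf hqf
  apply mem_bar_of_coeffMap_mem M
  rw [← hx]
  exact x.2

/-- `Ψ` as an element of the function field. -/
def hFW : FF M := ⟨hq A.tq qf, A.hq_memW W qf hqf⟩

/-- **(α2)** `Ψ` is integral over `K[j]`. -/
theorem hFW_isIntegral : IsIntegral (Algebra.adjoin Kbar {jF M}) (A.hFW W qf hqf) := by
  obtain ⟨x, hx1, hx2⟩ := A.exists_xCW W qf hqf
  obtain ⟨n, p, hrel⟩ := exists_monic_relationW A.hauptAn W x hx1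
  exact isIntegral_of_relation M (A.hFW W qf hqf) x hx2 n p hrel

/-- **(γ')** `Ψ dt` has at most simple poles at the cusps: for every ring hom `σ : F_M → K((z))`
which is the identity on constants and sends `j` to `j(z^M)`, the series `σ Ψ * d(σ t)/dz` has a
pole of order at most one. -/
theorem cusp_simple_pole (σ : FF M →+* LaurentSeries Kbar)
    (hσc : ∀ c : Kbar, σ (algebraMap Kbar (FF M) c) = HahnSeries.C c)
    (hσj : σ (jF M) = qExpand Kbar M (jK 1)) {n : ℤ} (hn : n < -1) :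
    (σ (A.hFW W qf hqf) * Fermat.Agent.Lib.Residue.D (σ A.tF)).coeff n = 0 := by
  obtain ⟨g, hg⟩ := exists_tau_eq M σ hσc hσj
  obtain ⟨x, hx1, hx2⟩ := A.exists_xCW W qf hqf
  have h1 : tau M g (A.hFW W qf hqf) = zL M (hslW A.hauptAn W g) := by
    have e : iotaF M (A.hFW W qf hqf) = x := Subtype.ext hx2.symm
    rw [tau_apply, e]
    apply tauC_eq
    rw [hx1, MerFun.sl_smul_algebraMap]
    rfl
  have h2 : tau M g A.tF = zL M (A.hauptAn.tr g) := by
    rw [tau_apply]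
    apply tauC_eq
    have e := EmbedC.embC_eq_of_qLaurent_eq M (iotaF M A.tF) A.θ_per A.θ_q
    rw [e, MerFun.sl_smul_algebraMap, ← A.hauptAn_θ]
    rfl
  have h3 : coeffMap iota (σ (A.hFW W qf hqf) * Fermat.Agent.Lib.Residue.D (σ A.tF)) =
      zL M (hslW A.hauptAn W g) * Fermat.Agent.Lib.Residue.D (zL M (A.hauptAn.tr g)) := by
    rw [map_mul, coeffMap_D, ← h1, ← h2, ← hg]
    rfl
  have h4 := zL_hslW_mul_D A.hauptAn W g hn
  rw [← h3, coeffMap_coeff] at h4
  exact (map_eq_zero_iff iota iota_injective).mp h4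

end FormsData

/-- **WP-GR8 for a weight two modular form** of level `N ∣ M`: `Ψ = qf / (q dt/dq)`. -/
theorem exists_psi_of_formsData {N : ℕ} [NeZero N] (hNM : N ∣ M) (A : FormsData M)
    (G : ModularForm ((Gamma0 N : Subgroup SL(2, ℤ)) : Subgroup (GL (Fin 2) ℝ)) 2)
    (qf : PowerSeries Kbar) (hqf : qExpansion 1 (G : ℍ → ℂ) = qf.map iota) :
    ∃ Ψ : FF M,
      (Ψ : LaurentSeries Kbar) * Gq A.tq = HahnSeries.ofPowerSeries ℤ Kbar qf ∧
      IsIntegral (Algebra.adjoin Kbar {jF M}) Ψ ∧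
      ∀ (σ : FF M →+* LaurentSeries Kbar),
        (∀ c : Kbar, σ (algebraMap Kbar (FF M) c) = HahnSeries.C c) →
        σ (jF M) = qExpand Kbar M (jK 1) →
        ∀ n : ℤ, n < -1 → (σ Ψ * Fermat.Agent.Lib.Residue.D (σ A.tF)).coeff n = 0 := by
  have hqf' : qExpansion 1 (WtTwo.ofModularForm hNM G).F = qf.map iota := hqf
  exact ⟨A.hFW (WtTwo.ofModularForm hNM G) qf hqf', A.hq_mul_Gq qf,
    A.hFW_isIntegral _ qf hqf', fun σ hσc hσj n hn => A.cusp_simple_pole _ qf hqf' σ hσc hσj hn⟩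

section Aux

open Fermat.Agent.Gateway.AuxLevel

/-- **Level divisible by nine**, `t = y₉`: for a weight two modular form `G` of level `N ∣ M` with
`q`-expansion `qf ∈ Kbar[[q]]`, `Ψ = qf / (q dy₉/dq)` lies in `F_M`, is integral over `Kbar[j]` and
`Ψ dy₉` has at most simple poles at the cusps. -/
theorem exists_psi_nine {N : ℕ} [NeZero N] (hNM : N ∣ M) (h9 : 9 ∣ M)
    (G : ModularForm ((Gamma0 N : Subgroup SL(2, ℤ)) : Subgroup (GL (Fin 2) ℝ)) 2)
    (qf : PowerSeries Kbar) (hqf : qExpansion 1 (G : ℍ → ℂ) = qf.map iota) :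
    ∃ Ψ : FF M,
      (Ψ : LaurentSeries Kbar) *
        (HahnSeries.single (1 : ℤ) (1 : Kbar) * Fermat.Agent.Lib.Residue.D L9.y9K) =
          HahnSeries.ofPowerSeries ℤ Kbar qf ∧
      IsIntegral (Algebra.adjoin Kbar {jF M}) Ψ ∧
      ∀ (σ : FF M →+* LaurentSeries Kbar),
        (∀ c : Kbar, σ (algebraMap Kbar (FF M) c) = HahnSeries.C c) →
        σ (jF M) = qExpand Kbar M (jK 1) →
        ∀ n : ℤ, n < -1 → (σ Ψ * Fermat.Agent.Lib.Residue.D
          (σ (⟨L9.y9K, L9.y9K_mem_of_dvd h9⟩ : FF M))).coeff n = 0 := by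
  obtain ⟨A, hA⟩ := exists_formsData 9 h9 no_elliptic_nine L9.y9K L9.y9K_mem L9.FF_nine_eq
    isIntegral_y9K
  have htF : A.tF = (⟨L9.y9K, L9.y9K_mem_of_dvd h9⟩ : FF M) := Subtype.ext hA
  have h := exists_psi_of_formsData hNM A G qf hqf
  rw [htF, Gq, hA] at h
  exact h

/-- **Level divisible by four**, `t = x₄`. -/
theorem exists_psi_four {N : ℕ} [NeZero N] (hNM : N ∣ M) (h4 : 4 ∣ M)
    (G : ModularForm ((Gamma0 N : Subgroup SL(2, ℤ)) : Subgroup (GL (Fin 2) ℝ)) 2)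
    (qf : PowerSeries Kbar) (hqf : qExpansion 1 (G : ℍ → ℂ) = qf.map iota) :
    ∃ Ψ : FF M,
      (Ψ : LaurentSeries Kbar) *
        (HahnSeries.single (1 : ℤ) (1 : Kbar) * Fermat.Agent.Lib.Residue.D L4.x4K) =
          HahnSeries.ofPowerSeries ℤ Kbar qf ∧
      IsIntegral (Algebra.adjoin Kbar {jF M}) Ψ ∧
      ∀ (σ : FF M →+* LaurentSeries Kbar),
        (∀ c : Kbar, σ (algebraMap Kbar (FF M) c) = HahnSeries.C c) →
        σ (jF M) = qExpand Kbar M (jK 1) →
        ∀ n : ℤ, n < -1 → (σ Ψ * Fermat.Agent.Lib.Residue.D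
          (σ (⟨L4.x4K, L4.x4K_mem_of_dvd h4⟩ : FF M))).coeff n = 0 := by
  obtain ⟨A, hA⟩ := exists_formsData 4 h4 no_elliptic_four L4.x4K L4.x4K_mem L4.FF_four_eq
    isIntegral_x4K
  have htF : A.tF = (⟨L4.x4K, L4.x4K_mem_of_dvd h4⟩ : FF M) := Subtype.ext hA
  have h := exists_psi_of_formsData hNM A G qf hqf
  rw [htF, Gq, hA] at h
  exact h

end Aux

end Fermat.Agent.Gateway.GoodRed.Forms
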